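import Mathlib
import Fermat.Agent.FF3.B4.Sec
import Fermat.Agent.FF3.Glue.Frame

/-!
# PROGRAMME I, Step B, node T5: TWIST ⇒ SECTION (helper22)

Abstract form of the heart of Step B.  `X : ExpPack S hdeg F₀ ϖ` is the expansion package of a
level (block B4, `FF3/B4/Sec.lean`), `Fr` a gluing frame (the lead's D-B2, `FF3/Glue/Frame.lean`)
whose two component rings are the completed valuation rings `X.Oh i₀`, `X.Oh i₁` of the package
(two-component special fibre: every node joins `i₀` to `i₁`).  The node rings of the frame are the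
node rings with the uniformiser INVERTED (fields of constants, `Glue.Node`), those of the package
are the INTEGRAL node rings; `FrameLink` says how one passes from one to the other:

* `ofPack` : an element of the integral node ring is an element of the big node ring;
* `toPack` : an element of the big node ring which is integral on the two boundary circles (it
  restricts to elements of `Oh`) comes from the integral node ring (maximum principle, (NORM)).

`TwistData` is the action of an inertia element on the package: `g` on the level field `F₀`,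
`σh v` on the completions, compatible with the frame endomorphism `σ` (`Glue.FrameHom`).

* `exists_twisted_roots` : if `f ∈ F₀` is a unit on all components, without zeros or poles in the
  tubes of the nodes, and `y` is a family of `n`-th roots of `f` in the completions, then
  `y' v := σh v (y v) * (y v)⁻¹ ^ a` is a family of `n`-th roots of `g f * f⁻¹ ^ a` which is
  COMPATIBLE AT THE NODES (`ExpPack.NodeCond`), as soon as `σ` raises the `n`-th roots of unity of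
  the constants to the power `a` (the lead's `compatible_twist`);
* `principal_twist` : hence the divisor `D'` of `g f * f⁻¹ ^ a` divided by `n` is principal
  (`ExpPack.principal_of_roots`).
-/

set_option autoImplicit false

namespace Fermat.Agent.FF3.StepB

open AlgebraicCurve Fermat.Agent.Red Fermat.Agent.BR.SS Fermat.Agent.FF3.B4 Fermat.Agent.FF3

universe u₁ u₂ u₃ u₄ u₅ u₆ w

variable {K : Type u₁} {F : Type u₂} {k : Type u₃} [Field K] [Field F] [Algebra K F] [Field k]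
  {A : ValuationSubring K} {π : A →+* k} {ι : Type u₄} {Ft : ι → Type u₅}
  [∀ v, Field (Ft v)] [∀ v, Algebra k (Ft v)] {ν : Type u₆}
  {S : SemistableSetup (F := F) A π ι Ft ν}
  {hdeg : ∀ v (Q : Place k (Ft v)), Q.deg = 1} {F₀ : Subfield F} {ϖ : F₀}

/-- **The link between the expansion package and the gluing frame** (integral node rings versus
node rings with the uniformiser inverted). -/
structure FrameLink (X : ExpPack.{u₁, u₂, u₃, u₄, u₅, u₆, w} S hdeg F₀ ϖ) (i₀ i₁ : ι)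
    {W : Type*} [CommRing W] {Rf B1f B2f : ν → Type*} [∀ e, CommRing (Rf e)]
    [∀ e, CommRing (B1f e)] [∀ e, CommRing (B2f e)] {n : ℕ}
    (Fr : Glue.Frame W (X.Oh i₀) (X.Oh i₁) ν Rf B1f B2f n) : Prop where
  /-- an element of the big node ring which restricts to integral elements on the two components
  comes from the integral node ring -/
  toPack : ∀ e (r : Rf e) (y : ∀ v, X.Oh v), (Fr.node e).b1 (y i₀) = (Fr.node e).a1 r →
    (Fr.node e).b2 (y i₁) = (Fr.node e).a2 r →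
    ∃ r' : X.R e, X.a1 e r' = X.b1 e (y (S.src e)) ∧ X.a2 e r' = X.b2 e (y (S.tgt e))
  /-- an element of the integral node ring is an element of the big node ring -/
  ofPack : ∀ e (r' : X.R e) (y : ∀ v, X.Oh v), X.a1 e r' = X.b1 e (y (S.src e)) →
    X.a2 e r' = X.b2 e (y (S.tgt e)) →
    ∃ r : Rf e, (Fr.node e).a1 r = (Fr.node e).b1 (y i₀) ∧
      (Fr.node e).a2 r = (Fr.node e).b2 (y i₁)

/-- **The action of a Galois element on the expansion package**, compatible with an endomorphism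
`σ` of the gluing frame. -/
structure TwistData (X : ExpPack.{u₁, u₂, u₃, u₄, u₅, u₆, w} S hdeg F₀ ϖ) (i₀ i₁ : ι)
    {W : Type*} [CommRing W] {Rf B1f B2f : ν → Type*} [∀ e, CommRing (Rf e)]
    [∀ e, CommRing (B1f e)] [∀ e, CommRing (B2f e)] {n : ℕ}
    {Fr : Glue.Frame W (X.Oh i₀) (X.Oh i₁) ν Rf B1f B2f n} (σ : Glue.FrameHom Fr)
    (g : F₀ →+* F₀) where
  /-- the action on the completed valuation rings -/
  σh : ∀ v, X.Oh v →+* X.Oh v
  σh_i₀ : ∀ y, σh i₀ y = σ.σOi y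
  σh_i₁ : ∀ y, σh i₁ y = σ.σOz y
  /-- compatibility with the action on the level field -/
  σh_emb : ∀ v (h : F₀) (hO : (h : F) ∈ S.O v) (hO' : ((g h : F₀) : F) ∈ S.O v),
    σh v (X.ofRatAt v h hO) = X.ofRatAt v (g h) hO'

section

variable (X : ExpPack.{u₁, u₂, u₃, u₄, u₅, u₆, w} S hdeg F₀ ϖ)

theorem ofRatAt_one (v : ι) (h1 : ((1 : F₀) : F) ∈ S.O v) : X.ofRatAt v 1 h1 = 1 :=
  Subtype.ext (map_one (X.emb v))

theorem ofRatAt_mul (v : ι) (h h' : F₀) (hO : (h : F) ∈ S.O v) (hO' : (h' : F) ∈ S.O v)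
    (hO'' : ((h * h' : F₀) : F) ∈ S.O v) :
    X.ofRatAt v (h * h') hO'' = X.ofRatAt v h hO * X.ofRatAt v h' hO' :=
  Subtype.ext (map_mul (X.emb v) h h')

theorem ofRatAt_pow (v : ι) (h : F₀) (hO : (h : F) ∈ S.O v) (m : ℕ)
    (hO' : ((h ^ m : F₀) : F) ∈ S.O v) : X.ofRatAt v (h ^ m) hO' = X.ofRatAt v h hO ^ m :=
  Subtype.ext (map_pow (X.emb v) h m)

theorem ofRatAt_congr (v : ι) {h h' : F₀} (e : h = h') (hO : (h : F) ∈ S.O v)
    (hO' : (h' : F) ∈ S.O v) : X.ofRatAt v h hO = X.ofRatAt v h' hO' := by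
  subst e
  rfl

end

variable {X : ExpPack.{u₁, u₂, u₃, u₄, u₅, u₆, w} S hdeg F₀ ϖ} {i₀ i₁ : ι}
  {W : Type*} [CommRing W] {Rf B1f B2f : ν → Type*} [∀ e, CommRing (Rf e)]
  [∀ e, CommRing (B1f e)] [∀ e, CommRing (B2f e)] {n : ℕ}
  {Fr : Glue.Frame W (X.Oh i₀) (X.Oh i₁) ν Rf B1f B2f n}

/-- **T5, node part (TWIST ⇒ compatible roots).**  See the header. -/
theorem exists_twisted_roots (hn : n ≠ 0) (L : FrameLink X i₀ i₁ Fr) (σ : Glue.FrameHom Fr)
    (a : ℕ) (hσ : ∀ ζ : W, ζ ^ n = 1 → σ.σW ζ = ζ ^ a) (g : F₀ →+* F₀)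
    (T : TwistData X i₀ i₁ σ g)
    (f : F₀) (hf0 : f ≠ 0) (hfO : ∀ v, (f : F) ∈ S.O v) (hfO' : ∀ v, ((f⁻¹ : F₀) : F) ∈ S.O v)
    (hgO : ∀ v, ((g f : F₀) : F) ∈ S.O v)
    (hft : ∀ e P, S.r P = ⟨S.src e, S.s₁ e⟩ → P.ord (f : F) = 0)
    (y : ∀ v, X.Oh v) (hy : ∀ v, y v ^ n = X.ofRatAt v f (hfO v))
    (hO' : ∀ v, ((g f * f⁻¹ ^ a : F₀) : F) ∈ S.O v) :
    ∃ y' : ∀ v, X.Oh v, (∀ v, y' v ^ n = X.ofRatAt v (g f * f⁻¹ ^ a) (hO' v)) ∧
      X.NodeCond y' := by
  have hn' : n - 1 + 1 = n := Nat.sub_add_cancel (Nat.one_le_iff_ne_zero.mpr hn)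
  have h1O : ∀ v, ((1 : F₀) : F) ∈ S.O v := fun v => (S.O v).one_mem
  -- the families of `f` and of `f⁻¹`
  let Yf : ∀ v, X.Oh v := fun v => X.ofRatAt v f (hfO v)
  let Yi : ∀ v, X.Oh v := fun v => X.ofRatAt v f⁻¹ (hfO' v)
  have hYY : ∀ v, Yf v * Yi v = 1 := fun v => by
    have hm : ((f * f⁻¹ : F₀) : F) ∈ S.O v := by rw [mul_inv_cancel₀ hf0]; exact h1O v
    rw [← ofRatAt_mul X v f f⁻¹ (hfO v) (hfO' v) hm,
      ofRatAt_congr X v (mul_inv_cancel₀ hf0) hm (h1O v)]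
    exact ofRatAt_one X v _
  -- the inverses of the roots
  let yinv : ∀ v, X.Oh v := fun v => y v ^ (n - 1) * Yi v
  have hyinv : ∀ v, y v * yinv v = 1 := fun v => by
    show y v * (y v ^ (n - 1) * Yi v) = 1
    rw [← mul_assoc, ← pow_succ', hn', hy v]
    exact hYY v
  have hyinvn : ∀ v, yinv v ^ n = Yi v := fun v => by
    have e1 : (y v * yinv v) ^ n = 1 := by rw [hyinv v, one_pow]
    rw [mul_pow, hy v] at e1
    calc yinv v ^ n = (Yi v * Yf v) * yinv v ^ n := by rw [mul_comm (Yi v), hYY v, one_mul]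
      _ = Yi v * (Yf v * yinv v ^ n) := mul_assoc _ _ _
      _ = Yi v := by rw [e1, mul_one]
  -- the node elements of `f` and of `f⁻¹`
  have hnodef : ∀ e, ∃ r : X.R e, X.a1 e r = X.b1 e (Yf (S.src e)) ∧
      X.a2 e r = X.b2 e (Yf (S.tgt e)) := fun e =>
    X.node_rat e f (hfO _) (hfO _) fun P hP => (hft e P hP).ge
  have hnodei : ∀ e, ∃ r : X.R e, X.a1 e r = X.b1 e (Yi (S.src e)) ∧
      X.a2 e r = X.b2 e (Yi (S.tgt e)) := fun e =>
    X.node_rat e f⁻¹ (hfO' _) (hfO' _) fun P hP => by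
      have : ((f⁻¹ : F₀) : F) = ((f : F₀) : F)⁻¹ := rfl
      rw [this, Place.ord_inv, hft e P hP, neg_zero]
  have hframef : ∀ e, ∃ r : Rf e, (Fr.node e).a1 r = (Fr.node e).b1 (Yf i₀) ∧
      (Fr.node e).a2 r = (Fr.node e).b2 (Yf i₁) := fun e => by
    obtain ⟨r', h1, h2⟩ := hnodef e
    exact L.ofPack e r' Yf h1 h2
  have hframei : ∀ e, ∃ r : Rf e, (Fr.node e).a1 r = (Fr.node e).b1 (Yi i₀) ∧
      (Fr.node e).a2 r = (Fr.node e).b2 (Yi i₁) := fun e => by
    obtain ⟨r', h1, h2⟩ := hnodei e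
    exact L.ofPack e r' Yi h1 h2
  choose rf hrf1 hrf2 using hframef
  choose ri hri1 _ using hframei
  have hunit : ∀ e, IsUnit (rf e) := fun e => by
    have h1 : rf e * ri e = 1 := (Fr.node e).a1_inj (by
      rw [map_mul, hrf1, hri1, ← map_mul, hYY, map_one, map_one])
    exact IsUnit.of_mul_eq_one _ h1
  -- the global root datum of `f`
  let d : Glue.GlobalDatum Fr :=
    { g := rf
      hg := hunit
      yi := y i₀
      yz := y i₁
      h1 := fun e => by rw [← map_pow, hy, hrf1]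
      h2 := fun e => by rw [← map_pow, hy, hrf2] }
  have hc := Glue.GlobalDatum.compatible_twist hn σ a hσ d (yinv i₀) (yinv i₁) (hyinv i₀)
    (hyinv i₁)
  refine ⟨fun v => T.σh v (y v) * yinv v ^ a, fun v => ?_, fun e => ?_⟩
  · have hpa : (((f⁻¹ : F₀) ^ a : F₀) : F) ∈ S.O v := by
      have : (((f⁻¹ : F₀) ^ a : F₀) : F) = ((f⁻¹ : F₀) : F) ^ a := rfl
      rw [this]
      exact pow_mem (hfO' v) a
    rw [mul_pow, ← map_pow, hy v, T.σh_emb v f (hfO v) (hgO v), ← pow_mul, mul_comm a n, pow_mul,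
      hyinvn v, ofRatAt_mul X v (g f) (f⁻¹ ^ a) (hgO v) hpa (hO' v),
      ofRatAt_pow X v f⁻¹ (hfO' v) a hpa]
  · obtain ⟨r, -, h1, h2⟩ := hc e
    refine L.toPack e r (fun v => T.σh v (y v) * yinv v ^ a) ?_ ?_
    · show (Fr.node e).b1 (T.σh i₀ (y i₀) * yinv i₀ ^ a) = _
      rw [T.σh_i₀]
      exact h1
    · show (Fr.node e).b2 (T.σh i₁ (y i₁) * yinv i₁ ^ a) = _
      rw [T.σh_i₁]
      exact h2

/-- **T5 (TWIST ⇒ SECTION ⇒ PRINCIPAL).**  With the notation of `exists_twisted_roots`: if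
`n D' = div (g f * f⁻¹ ^ a)` in the sense of `hfac` (disc factorisation) then `D'` is principal. -/
theorem principal_twist (hA : IsRankOne A) (hF : RiemannPkg K F)
    (htwo : TwoLatticeProp A S.Oall)
    (hϖ : ∃ a : K, IsModulus A a ∧ ((ϖ : F₀) : F) = algebraMap K F a)
    (hn : n ≠ 0) (L : FrameLink X i₀ i₁ Fr) (σ : Glue.FrameHom Fr)
    (a : ℕ) (hσ : ∀ ζ : W, ζ ^ n = 1 → σ.σW ζ = ζ ^ a) (g : F₀ →+* F₀)
    (T : TwistData X i₀ i₁ σ g)
    (f : F₀) (hf0 : f ≠ 0) (hfO : ∀ v, (f : F) ∈ S.O v) (hfO' : ∀ v, ((f⁻¹ : F₀) : F) ∈ S.O v)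
    (hgO : ∀ v, ((g f : F₀) : F) ∈ S.O v)
    (hft : ∀ e P, S.r P = ⟨S.src e, S.s₁ e⟩ → P.ord (f : F) = 0)
    (y : ∀ v, X.Oh v) (hy : ∀ v, y v ^ n = X.ofRatAt v f (hfO v))
    (hO' : ((g f * f⁻¹ ^ a : F₀) : F) ∈ S.Oall)
    (hfu : ∃ v, S.res v ⟨(g f * f⁻¹ ^ a : F₀), S.mem_Oall.1 hO' v⟩ ≠ 0)
    (D' E₀ E₁ : Divisor K F) (hdeg0 : Divisor.degree D' = 0) (hE₀ : 0 ≤ E₀) (hE₁ : 0 ≤ E₁)
    (hdisj : ∀ P, E₀ P = 0 ∨ E₁ P = 0)
    (hDsm : ∀ P ∈ D'.support, S.IsSmoothPlace P) (hE₀sm : ∀ P ∈ E₀.support, S.IsSmoothPlace P)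
    (hE₁sm : ∀ P ∈ E₁.support, S.IsSmoothPlace P)
    (hadm : X.Adm (-D')) (hadm₀ : X.Adm (-D' + E₀)) (hadm₁ : X.Adm (-D' + E₁))
    (hl₀ : RatLift S hdeg F₀ (-D' + E₀)) (hl₁ : RatLift S hdeg F₀ (-D' + E₁))
    (hfac : ∀ x : Σ v, Place k (Ft v), ¬ S.IsBranch x → ∃ u : X.Dk x, IsUnit u ∧
      X.dT x u = X.bT x (X.ofRatAt x.1 (g f * f⁻¹ ^ a) (S.mem_Oall.1 hO' x.1)) *
        X.pole (-D') x ^ n)
    (hroot : ∀ x : Σ v, Place k (Ft v), ¬ S.IsBranch x → ∀ u : X.Dk x, IsUnit u →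
      ∀ z : X.ET x, z ^ n = X.dT x u → ∃ t : X.Dk x, X.dT x t = z) :
    D' ∈ Divisor.principal (K := K) (F := F) := by
  obtain ⟨y', hy', hnode⟩ := exists_twisted_roots hn L σ a hσ g T f hf0 hfO hfO' hgO hft y hy
    (S.mem_Oall.1 hO')
  exact X.principal_of_roots hA hF htwo hϖ D' E₀ E₁ hdeg0 hE₀ hE₁ hdisj hDsm hE₀sm hE₁sm
    hadm hadm₀ hadm₁ hl₀ hl₁ hn (g f * f⁻¹ ^ a) hO' hfu y' hy' hnode hfac hroot

end Fermat.Agent.FF3.StepB
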