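import Fermat.Agent.BR2.GeoLevel
import Fermat.Agent.FF3.StepA.Defs
import Fermat.Agent.FF3.LevelDesc.Bridge
import Fermat.Agent.FF3.StepB.Twist

/-!
# PROGRAMME I, Steps A + B: THE TOP FILE, part 1: definitions and named hypotheses (helper22)

`torEps_of` (`FF3/StepB/Top.lean`) : the top literal `TorEps Dt` of Steps A + B (helper4's `P.TorEps`, restated here
verbatim) from the NAMED outputs of the blocks:

* `StepAOut Dt`   (block A, helper27: `stepA_approx`): `q`-new ∩ `torSub (q^k)` ⊆ `tor#(q^k)`
                  (frame-free form `StepA.IsTorSharpApprox`);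
* `GoodRep Dt`    (T1, helper23): every class of `torSub (q^k)` has a representative `(D, f)` with
                  `D` supported on places with smooth reduction and `f` a unit on both components;
* `RatNotion Dt`  (T2a, helper14): a notion `Rat Sl P` of rationality of the smooth places over
                  the levels (every smooth place is rational over all large levels; inertia
                  permutes the rational places of a Galois-stable level); the packages of T3 are
                  relative to it (`LevelPack.adm`);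
* `AuxDiv Dt`     (T2b, helper21): auxiliary divisors `E₀`, `E₁` with `RatLift` at all large levels;
* `LevelPacks Dt Rt` (T3 helper22 + T4 helper29/helper5): at every large Galois-stable level `Sl`
                  containing `μ_{q^k}` the expansion package `X`, its gluing frame `Fr`, the link
                  between the two, and for every inertia element `s` the frame endomorphism `σ` with
                  its action on the package.

The proof is the chain: GOOD-REP → Step A (+ representative independence `ApproxPow.of_isRep`) →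
level descent (`exists_level_of_approxPow`) → exact roots in the completions
(`RatApprox.exists_root`) → TWIST ⇒ SECTION ⇒ PRINCIPAL (`principal_twist`, T5) → Pic plumbing
(T6, proved here: `smul_sub_cyclo_eq_zero_of_principal`).
-/

set_option autoImplicit false
set_option linter.unusedSectionVars false
set_option linter.style.haveILetI false

noncomputable section

set_option synthInstance.maxHeartbeats 400000

namespace Fermat.Agent.FF3.StepB

open ModularCurve AlgebraicCurve IsLocalRing
open Fermat.Agent.Red Fermat.Agent.X0 Fermat.Agent.Hecke Fermat.Agent.BR.SS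
open Fermat.Agent.BR.Final Fermat.Agent.BR2 Fermat.Agent.BR2.SetupOfData
open Fermat.Agent.BR Fermat.Agent.Pseudo Fermat.Agent.BR.Inst.Levels
open Fermat.Agent.BR.Inst.FKCover Fermat.Agent.BR.S0 Fermat.Agent.BR.S0.PointDict
open Fermat.Agent.BR.S0.RedModular Fermat.Agent.BR.TwoVal Fermat.Agent.BR.ValTwo
open Fermat.Agent.FF3.StepA Fermat.Agent.FF3.LevelDesc Fermat.Agent.FF3.B4 Fermat.Agent.FF3

local notation "GQ" => (AlgebraicClosure ℚ ≃ₐ[ℚ] AlgebraicClosure ℚ)

variable {M q : ℕ} [NeZero M] [hq : Fact q.Prime]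
variable {B : ValuationSubring Kb} {hB : B.LiesOverPrime q} {hqM : ¬ q ∣ M}
variable [IsAlgClosed (ResidueField B)]

local notation "kB" => IsLocalRing.ResidueField B
local notation "FtM" => modularFunctionFieldFullC (IsLocalRing.ResidueField B) M

/-! ## The top literal -/

/-- **(P1) TOR-EPS** (verbatim copy of helper4's `P.TorEps`, `FF3/P/Contract.lean`). -/
def TorEps (Dt : ModularData M q B hB hqM) : Prop :=
  haveI : NeZero q := ⟨hq.out.ne_zero⟩
  ∃ e : ℕ, e ≠ 0 ∧ ∀ (k : ℕ) (s : GQ), s ∈ B.inertiaSubgroupIn ℚ →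
    ∀ x : JZero (M * q), x ∈ Filt.torSub (setup Dt) (q ^ k) →
      LevelTransfer.alphaDown M q x = 0 → LevelMaps.betaDown M q x = 0 →
        e • (s • x - Cyclo.cycloLift (q ^ k) s • x) = 0

/-! ## The levels -/

/-- the function field of the level `Sl` -/
abbrev levelField (M q : ℕ) [NeZero M] [Fact q.Prime] (Sl : Finset Kb) : Subfield (Fb (M * q)) :=
  FKs (M * q) (KS q Sl)

theorem algebraMap_mem_levelField {Sl : Finset Kb} {c : Kb} (hc : c ∈ KS q Sl) :
    algebraMap Kb (Fb (M * q)) c ∈ levelField M q Sl :=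
  Subfield.subset_closure (Or.inl ⟨c, hc, rfl⟩)

/-- the uniformiser of the level `Sl`, in the level field -/
def levelUnif (M : ℕ) [NeZero M] (hB : B.LiesOverPrime q) (Sl : Finset Kb) : levelField M q Sl :=
  ⟨algebraMap Kb (Fb (M * q)) (unif B hq.out hB Sl),
    algebraMap_mem_levelField (unif_mem_KS B hq.out hB Sl)⟩

/-- the place `P` of `F̄_{Mq}` is rational over the level with constants `K'`: the values at `P` of
the functions of the level field are constants of the level -/
def RatPlace (M q : ℕ) [NeZero M] [Fact q.Prime] (K' : Subfield Kb)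
    (P : Place Kb (Fb (M * q))) : Prop :=
  ∀ h ∈ FKs (M * q) K', ∀ c : Kb, IsValueAt P h c → c ∈ K'

/-! ## T6: Pic plumbing -/

/-- the exponent of the action of `s` on `μ_n`, as a natural number -/
def cycloExp (n : ℕ) [NeZero n] (s : GQ) : ℕ := ((Cyclo.cycloN n s : (ZMod n)ˣ) : ZMod n).val

theorem cycloExp_spec (n : ℕ) [NeZero n] (s : GQ) {ζ : Kb} (hζ : ζ ^ n = 1) :
    s ζ = ζ ^ cycloExp n s :=
  Cyclo.cycloN_spec n s hζ

theorem cycloLift_eq_cycloExp (n : ℕ) [NeZero n] (s : GQ) :
    Cyclo.cycloLift n s = (cycloExp n s : ℤ) := rfl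

/-- **T6 (PIC PLUMBING)**: if `s D - a D` is principal, `a` the exponent of `s` on `μ_n`, then
`s x = χ_n(s) x` for the class `x` of `D`. -/
theorem smul_sub_cyclo_eq_zero_of_principal {N : ℕ} [NeZero N] (n : ℕ) [NeZero n] (s : GQ)
    {x : JZero N} {D : Divisor.degZero (K := Kb) (F := Fb N)} (hx : Pic0.mk D = x)
    (hprin : (arithmeticGalois (modularFunctionFieldFull N) s • (D : Divisor Kb (Fb N)) -
      cycloExp n s • (D : Divisor Kb (Fb N))) ∈ Divisor.principal (K := Kb) (F := Fb N)) :
    s • x - Cyclo.cycloLift n s • x = 0 := by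
  subst hx
  rw [cycloLift_eq_cycloExp, natCast_zsmul, galois_smul_pic0_def, SemilinearAut.pic0_smul_mk]
  have h1 : cycloExp n s • Pic0.mk D = Pic0.mk (cycloExp n s • D) := rfl
  rw [h1]
  have h2 : Pic0.mk (SemilinearAut.degZeroSMulHom
        (arithmeticGalois (modularFunctionFieldFull N) s) D) - Pic0.mk (cycloExp n s • D) =
      Pic0.mk (SemilinearAut.degZeroSMulHom
        (arithmeticGalois (modularFunctionFieldFull N) s) D - cycloExp n s • D) := rfl
  rw [h2]
  refine (QuotientAddGroup.eq_zero_iff _).mpr ?_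
  rw [AddSubgroup.mem_addSubgroupOf]
  exact hprin

/-! ## The named outputs of the blocks -/

/-- all places of the components have degree one -/
theorem hdegOf (Dt : ModularData M q B hB hqM) (v : Fin 2) (Q : Place kB FtM) : Q.deg = 1 :=
  (riemannPkg Dt v).deg_one Q

/-- **(block A)** `q`-new ∩ `torSub (q ^ k)` ⊆ `tor#(q ^ k)`, frame-free form
(helper27's `stepA_approx`). -/
def StepAOut (Dt : ModularData M q B hB hqM) : Prop :=
  haveI := ResInst.charP_res q B hB
  ∀ (k : ℕ) (x : JZero (M * q)), x ∈ Filt.torSub (setup Dt) (q ^ k) →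
    LevelTransfer.alphaDown M q x = 0 → LevelMaps.betaDown M q x = 0 →
      IsTorSharpApprox (B := B) (hB := hB) hqM (q ^ k) x

/-- **(T1) GOOD-REP**: every class of the toric part has a representative `(D, f)` with `D`
supported on the places with smooth reduction and `f` a unit on the two components. -/
def GoodRep (Dt : ModularData M q B hB hqM) : Prop :=
  ∀ (k : ℕ) (x : JZero (M * q)), x ∈ Filt.torSub (setup Dt) (q ^ k) →
    ∃ (D : Divisor.degZero (K := Kb) (F := Fb (M * q))) (f : Fb (M * q)),
      Filt.IsRep (q ^ k) x D f ∧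
      (∀ P ∈ (D : Divisor Kb (Fb (M * q))).support, (setup Dt).IsSmoothPlace P) ∧
      ∀ v, ∃ h : f ∈ (setup Dt).O v, (setup Dt).res v ⟨f, h⟩ ≠ 0

/-- **(T2a) RATIONAL PLACES**: every place is rational over all large levels. -/
def RatLevels (M q : ℕ) [NeZero M] [Fact q.Prime] : Prop :=
  ∀ P : Place Kb (Fb (M * q)), ∃ S₀ : Finset Kb, ∀ Sl : Finset Kb, S₀ ⊆ Sl →
    RatPlace M q (KS q Sl) P

/-- the rational places of a Galois-stable level are Galois-stable -/
theorem ratPlace_gal_smul {Sl : Finset Kb} (hS : GalStable Sl) (s : GQ)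
    {P : Place Kb (Fb (M * q))} (hP : RatPlace M q (KS q Sl) P) :
    RatPlace M q (KS q Sl) (gal (M * q) s • P) := by
  intro h hh c hc
  have h1 : gal (M * q) s • ((gal (M * q) s)⁻¹ • h) = h := smul_inv_smul _ _
  have h2 : SemilinearAut.baseAut (gal (M * q) s) (s.symm c) = c := s.apply_symm_apply c
  rw [← h1, ← h2, Fermat.Agent.BR.AnnulusRed.isValueAt_smul_iff] at hc
  have h3 : (gal (M * q) s)⁻¹ • h ∈ FKs (M * q) (KS q Sl) := by
    rw [← map_inv]
    exact (hS.gal_smul_mem_FKs q (M * q) s⁻¹).mpr hh
  have h4 := hP _ h3 _ hc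
  have h5 := (hS.map_mem_KS q s (x := s.symm c)).mpr h4
  rwa [s.apply_symm_apply] at h5

/-- **(T2a) A NOTION OF RATIONALITY OF PLACES OVER THE LEVELS**: `Rat Sl P` = "the place `P` (with
smooth reduction) is rational over the level `Sl`"; every smooth place is rational over all large
levels, and inertia permutes the rational places of a Galois-stable level.  Two instances:
`RatNotion.ofValues` below (`RatPlace`: the values of the level functions are level constants) and
helper14's `LevelDesc.IsRatPlace` (the value of the disc coordinate is a level constant). -/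
structure RatNotion (Dt : ModularData M q B hB hqM) where
  Rat : Finset Kb → Place Kb (Fb (M * q)) → Prop
  exists_level : ∀ P : Place Kb (Fb (M * q)), (setup Dt).IsSmoothPlace P →
    ∃ S₀ : Finset Kb, ∀ Sl : Finset Kb, S₀ ⊆ Sl → Rat Sl P
  gal_smul : ∀ Sl : Finset Kb, GalStable Sl → ∀ s : GQ, s ∈ B.inertiaSubgroupIn ℚ →
    ∀ P : Place Kb (Fb (M * q)), (setup Dt).IsSmoothPlace P → Rat Sl P →
      Rat Sl (gal (M * q) s • P)

/-- the notion of rationality `RatPlace` -/
def RatNotion.ofValues (Dt : ModularData M q B hB hqM) (h : RatLevels M q) : RatNotion Dt where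
  Rat Sl P := RatPlace M q (KS q Sl) P
  exists_level P _ := h P
  gal_smul _ hS s _ _ _ hP := ratPlace_gal_smul hS s hP

/-- **(T2b) AUXILIARY DIVISORS**: for `D'` of degree `0` with smooth support there are effective
disjoint `E₀`, `E₁` with smooth support such that the glued Riemann–Roch spaces of `-D' + E₀`,
`-D' + E₁` lift to rational functions of all large levels. -/
def AuxDiv (Dt : ModularData M q B hB hqM) : Prop :=
  ∀ D' : Divisor Kb (Fb (M * q)), Divisor.degree D' = 0 →
    (∀ P ∈ D'.support, (setup Dt).IsSmoothPlace P) →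
    ∃ E₀ E₁ : Divisor Kb (Fb (M * q)), 0 ≤ E₀ ∧ 0 ≤ E₁ ∧ (∀ P, E₀ P = 0 ∨ E₁ P = 0) ∧
      (∀ P ∈ E₀.support, (setup Dt).IsSmoothPlace P) ∧
      (∀ P ∈ E₁.support, (setup Dt).IsSmoothPlace P) ∧
      ∃ S₀ : Finset Kb, ∀ Sl : Finset Kb, S₀ ⊆ Sl →
        RatLift (setup Dt) (hdegOf Dt) (levelField M q Sl) (-D' + E₀) ∧
        RatLift (setup Dt) (hdegOf Dt) (levelField M q Sl) (-D' + E₁)

/-- **(T3) THE EXPANSION PACKAGE OF A LEVEL with its gluing frame.** -/
structure LevelPack (Dt : ModularData M q B hB hqM) (Rt : RatNotion Dt) (Sl : Finset Kb)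
    (n : ℕ) where
  /-- the expansion package (block B4) -/
  X : ExpPack.{0, 0, 0, 0, 0, 0, 0} (setup Dt) (hdegOf Dt) (levelField M q Sl)
    (levelUnif M hB Sl)
  /-- divisors with smooth rational support are admissible -/
  adm : ∀ E' : Divisor Kb (Fb (M * q)),
    (∀ P ∈ E'.support, (setup Dt).IsSmoothPlace P ∧ Rt.Rat Sl P) → X.Adm E'
  /-- the completions are adically complete discrete valuation rings -/
  adic : ∀ v, IsAdicDVR (X.Oh v) (X.unif v)
  /-- DISC-UNIT: a function of the level which is a unit on the component of the disc `x` and has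
  divisor `-n E'` in the disc is, times the `n`-th power of the pole factor of `E'`, a unit of the
  disc ring -/
  discUnit : ∀ E' : Divisor Kb (Fb (M * q)), X.Adm E' →
    ∀ x : Σ v : Fin 2, Place kB ((fun _ : Fin 2 => FtM) v), ¬ (setup Dt).IsBranch x →
    ∀ (h : levelField M q Sl) (hO : (h : Fb (M * q)) ∈ (setup Dt).O x.1),
      (setup Dt).res x.1 ⟨h, hO⟩ ≠ 0 →
      (∀ P, (setup Dt).r P = x → P.ord (h : Fb (M * q)) = -((n : ℤ) * E' P)) →
      ∃ u : X.Dk x, IsUnit u ∧ X.dT x u = X.bT x (X.ofRatAt x.1 h hO) * X.pole E' x ^ n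
  /-- DISC-ROOT (L11): an `n`-th root in the boundary ring of a unit of the disc ring lies in the
  disc ring -/
  discRoot : ∀ x : Σ v : Fin 2, Place kB ((fun _ : Fin 2 => FtM) v), ¬ (setup Dt).IsBranch x →
    ∀ u : X.Dk x, IsUnit u → ∀ z : X.ET x, z ^ n = X.dT x u → ∃ t : X.Dk x, X.dT x t = z
  /-- the constants of the gluing frame -/
  W : Type
  [instW : CommRing W]
  /-- the node rings of the gluing frame (uniformiser inverted) -/
  Rf : Crossing (chartDataModular B hB hqM) → Type
  [instRf : ∀ e, CommRing (Rf e)]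
  B1f : Crossing (chartDataModular B hB hqM) → Type
  [instB1f : ∀ e, CommRing (B1f e)]
  B2f : Crossing (chartDataModular B hB hqM) → Type
  [instB2f : ∀ e, CommRing (B2f e)]
  /-- the gluing frame (the lead's D-B2): component `0` is the source, component `1` the target of
  every node -/
  Fr : Glue.Frame W (X.Oh 0) (X.Oh 1) (Crossing (chartDataModular B hB hqM)) Rf B1f B2f n
  /-- the link between the integral node rings of `X` and the node rings of `Fr` -/
  link : FrameLink X 0 1 Fr

attribute [instance] LevelPack.instW LevelPack.instRf LevelPack.instB1f LevelPack.instB2f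

/-- **(T4) THE ACTION OF AN INERTIA ELEMENT** `s` (acting on `μ_n` through `ζ ↦ ζ ^ a`) on the
package of a Galois-stable level. -/
structure InertiaPack {Dt : ModularData M q B hB hqM} {Rt : RatNotion Dt} {Sl : Finset Kb}
    {n : ℕ} (P : LevelPack Dt Rt Sl n) (s : GQ) (a : ℕ) where
  /-- the endomorphism of the gluing frame -/
  σ : Glue.FrameHom P.Fr
  hσ : ∀ ζ : P.W, ζ ^ n = 1 → σ.σW ζ = ζ ^ a
  /-- the action on the level field -/
  g : levelField M q Sl →+* levelField M q Sl
  hg : ∀ h : levelField M q Sl,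
    ((g h : levelField M q Sl) : Fb (M * q)) = gal (M * q) s • (h : Fb (M * q))
  /-- the action on the completions -/
  twist : TwistData P.X 0 1 σ g

/-- **(T3 + T4)** at every large Galois-stable level containing `μ_{q^k}`. -/
def LevelPacks (Dt : ModularData M q B hB hqM) (Rt : RatNotion Dt) : Prop :=
  ∀ k : ℕ, ∃ S₀ : Finset Kb, ∀ Sl : Finset Kb, S₀ ⊆ Sl → GalStable Sl →
    (∃ ζ ∈ KS q Sl, IsPrimitiveRoot ζ (q ^ k)) →
    ∃ P : LevelPack Dt Rt Sl (q ^ k), ∀ s : GQ, s ∈ B.inertiaSubgroupIn ℚ → ∀ a : ℕ,
      (∀ ζ : Kb, ζ ^ (q ^ k) = 1 → s ζ = ζ ^ a) → Nonempty (InertiaPack P s a)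

/-! ## Auxiliary lemmas -/

theorem mem_of_pow_mem {L : Type*} [Field L] (O : ValuationSubring L) {x : L} {n : ℕ}
    (hn : n ≠ 0) (h : x ^ n ∈ O) : x ∈ O := by
  rw [← O.valuation_le_one_iff] at h ⊢
  rw [map_pow] at h
  exact (pow_le_one_iff hn).mp h

/-- inertia preserves the places with smooth reduction -/
theorem isSmoothPlace_gal_smul (Dt : ModularData M q B hB hqM) {s : GQ}
    (hs : s ∈ B.inertiaSubgroupIn ℚ) (P : Place Kb (Fb (M * q))) :
    (setup Dt).IsSmoothPlace (gal (M * q) s • P) ↔ (setup Dt).IsSmoothPlace P := by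
  unfold SemistableSetup.IsSmoothPlace
  rw [setup_r_smul Dt hs P]

theorem isRep_nsmul {K F : Type*} [Field K] [Field F] [Algebra K F] {m : ℕ} {x : Pic0 K F}
    {D : Divisor.degZero (K := K) (F := F)} {f : F} (h : Filt.IsRep m x D f) (a : ℕ) :
    Filt.IsRep m (a • x) (a • D) (f ^ a) := by
  induction a with
  | zero => simpa using Filt.isRep_zero m
  | succ a ih =>
    rw [succ_nsmul, succ_nsmul, pow_succ]
    exact ih.add h

end Fermat.Agent.FF3.StepB
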