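import Fermat.Agent.FF3.StepB.Defs

/-!
# PROGRAMME I, Steps A + B: THE TOP FILE, part 2: `TorEps Dt` from the named outputs (helper22)

See `FF3/StepB/Defs.lean` for the statements `StepAOut`, `GoodRep`, `RatLevels`, `AuxDiv`,
`LevelPacks`.
-/

set_option autoImplicit false
set_option linter.unusedSectionVars false
set_option linter.style.haveILetI false

noncomputable section

set_option synthInstance.maxHeartbeats 400000

namespace Fermat.Agent.FF3.StepB

open ModularCurve AlgebraicCurve IsLocalRing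
open Fermat.Agent.Red Fermat.Agent.X0 Fermat.Agent.Hecke Fermat.Agent.BR.SS
open Fermat.Agent.BR.Final Fermat.Agent.BR2 Fermat.Agent.BR2.SetupOfData
open Fermat.Agent.BR Fermat.Agent.Pseudo Fermat.Agent.BR.Inst.Levels
open Fermat.Agent.BR.Inst.FKCover Fermat.Agent.BR.S0 Fermat.Agent.BR.S0.PointDict
open Fermat.Agent.BR.S0.RedModular Fermat.Agent.BR.TwoVal Fermat.Agent.BR.ValTwo
open Fermat.Agent.FF3.StepA Fermat.Agent.FF3.LevelDesc Fermat.Agent.FF3.B4 Fermat.Agent.FF3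

local notation "GQ" => (AlgebraicClosure ℚ ≃ₐ[ℚ] AlgebraicClosure ℚ)

variable {M q : ℕ} [NeZero M] [hq : Fact q.Prime]
variable {B : ValuationSubring Kb} {hB : B.LiesOverPrime q} {hqM : ¬ q ∣ M}
variable [IsAlgClosed (ResidueField B)]

local notation "kB" => IsLocalRing.ResidueField B
local notation "FtM" => modularFunctionFieldFullC (IsLocalRing.ResidueField B) M

theorem isModulus_unif (Sl : Finset Kb) : IsModulus B (unif B hq.out hB Sl) := by
  have h1 := unif_lt_one B hq.out hB Sl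
  have h0 := unif_ne_zero B hq.out hB Sl
  refine ⟨(B.valuation_le_one_iff _).mp h1.le, h0, fun h => ?_⟩
  have h2 := (B.valuation_le_one_iff _).mpr h
  rw [map_inv₀] at h2
  have h3 : (1 : B.ValueGroup) < (B.valuation (unif B hq.out hB Sl))⁻¹ :=
    (one_lt_inv₀ (zero_lt_iff.mpr ((map_ne_zero _).mpr h0))).mpr h1
  exact absurd h2 (not_le.mpr h3)

theorem inv_mem_of_res_ne_zero {K F k : Type*} [Field K] [Field F] [Algebra K F] [Field k]
    {A : ValuationSubring K} {π : A →+* k} {ι : Type*} {Ft : ι → Type*}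
    [∀ v, Field (Ft v)] [∀ v, Algebra k (Ft v)] {ν : Type*}
    (S : SemistableSetup (F := F) A π ι Ft ν) {v : ι} {f : F} (h : f ∈ S.O v)
    (hr : S.res v ⟨f, h⟩ ≠ 0) : f⁻¹ ∈ S.O v := by
  have hu : IsUnit (⟨f, h⟩ : S.O v) := by
    by_contra hnu
    exact hr ((S.res_eq_zero_iff v _).mpr hnu)
  obtain ⟨u, hu⟩ := hu
  have h1 : (u : S.O v) * ((u⁻¹ : (S.O v)ˣ) : S.O v) = 1 := Units.mul_inv u
  have h2 : f * (((u⁻¹ : (S.O v)ˣ) : S.O v) : F) = 1 := by
    have h3 := congrArg (fun x : S.O v => (x : F)) h1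
    rw [hu] at h3
    exact h3
  rw [← eq_inv_of_mul_eq_one_right h2]
  exact Subtype.coe_prop _

theorem res_ne_zero_of_inv_mem {K F k : Type*} [Field K] [Field F] [Algebra K F] [Field k]
    {A : ValuationSubring K} {π : A →+* k} {ι : Type*} {Ft : ι → Type*}
    [∀ v, Field (Ft v)] [∀ v, Algebra k (Ft v)] {ν : Type*}
    (S : SemistableSetup (F := F) A π ι Ft ν) {v : ι} {f : F} (hf0 : f ≠ 0) (h : f ∈ S.O v)
    (h' : f⁻¹ ∈ S.O v) : S.res v ⟨f, h⟩ ≠ 0 := by
  intro h0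
  refine ((S.res_eq_zero_iff v _).mp h0) ?_
  exact IsUnit.of_mul_eq_one ⟨f⁻¹, h'⟩ (Subtype.ext (mul_inv_cancel₀ hf0))

/-- **STEP B at a level**: the core of the argument, at a Galois-stable level `Sl` carrying all the
data.  `(D, f)` a good representative (`n D = div f`, `D` with smooth rational support, `f` a unit
on both components, rational over the level, with `n`-th roots `y` in the completions); `s` an
inertia element acting on `μ_n` by `ζ ↦ ζ ^ a`.  Then `s D - a D` is principal. -/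
theorem principal_of_levelPack (Dt : ModularData M q B hB hqM)
    {Rt : RatNotion Dt} {Sl : Finset Kb} (hgal : GalStable Sl) {n : ℕ} (hn : n ≠ 0)
    (P : LevelPack Dt Rt Sl n)
    {s : GQ} (hs : s ∈ B.inertiaSubgroupIn ℚ) {a : ℕ} (I : InertiaPack P s a)
    (D : Divisor.degZero (K := Kb) (F := Fb (M * q))) (f : Fb (M * q))
    (hDf : ∀ Q : Place Kb (Fb (M * q)), (n • (D : Divisor Kb (Fb (M * q)))) Q = Q.ord f)
    (hf0 : f ≠ 0)
    (hDsm : ∀ Q ∈ (D : Divisor Kb (Fb (M * q))).support, (setup Dt).IsSmoothPlace Q)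
    (hDrat : ∀ Q ∈ (D : Divisor Kb (Fb (M * q))).support, Rt.Rat Sl Q)
    (hfu : ∀ v, ∃ h : f ∈ (setup Dt).O v, (setup Dt).res v ⟨f, h⟩ ≠ 0)
    (hfF : f ∈ levelField M q Sl)
    (y : ∀ v, P.X.Oh v)
    (hy : ∀ v, y v ^ n = P.X.ofRatAt v ⟨f, hfF⟩ (hfu v).1)
    (E₀ E₁ : Divisor Kb (Fb (M * q))) (hE₀ : 0 ≤ E₀) (hE₁ : 0 ≤ E₁)
    (hdisj : ∀ Q, E₀ Q = 0 ∨ E₁ Q = 0)
    (hE₀sm : ∀ Q ∈ E₀.support, (setup Dt).IsSmoothPlace Q)
    (hE₁sm : ∀ Q ∈ E₁.support, (setup Dt).IsSmoothPlace Q)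
    (hE₀rat : ∀ Q ∈ E₀.support, Rt.Rat Sl Q)
    (hE₁rat : ∀ Q ∈ E₁.support, Rt.Rat Sl Q)
    (hl₀ : RatLift (setup Dt) (hdegOf Dt) (levelField M q Sl)
      (-(gal (M * q) s • (D : Divisor Kb (Fb (M * q))) - a • (D : Divisor Kb (Fb (M * q)))) + E₀))
    (hl₁ : RatLift (setup Dt) (hdegOf Dt) (levelField M q Sl)
      (-(gal (M * q) s • (D : Divisor Kb (Fb (M * q))) - a • (D : Divisor Kb (Fb (M * q)))) + E₁)) :
    (gal (M * q) s • (D : Divisor Kb (Fb (M * q))) - a • (D : Divisor Kb (Fb (M * q)))) ∈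
      Divisor.principal (K := Kb) (F := Fb (M * q)) := by
  classical
  have hsD : s ∈ B.decompositionSubgroup ℚ :=
    Fermat.Agent.S05.mem_decompositionSubgroup_of_mem_inertiaSubgroupIn B hs
  -- `g` preserves the two valuation rings
  have hgO_iff : ∀ (v : Fin 2) (x : Fb (M * q)),
      gal (M * q) s • x ∈ (setup Dt).O v ↔ x ∈ (setup Dt).O v := by
    intro v x
    fin_cases v
    · exact Fermat.Agent.BR.GaloisTwo.gal_smul_mem_O1_iff B hB hsD
    · exact Fermat.Agent.BR.GaloisTwo.gal_smul_mem_O2_iff hqM B hB hsD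
  -- the function in the level field
  let fL : levelField M q Sl := ⟨f, hfF⟩
  have hfL0 : fL ≠ 0 := fun h => hf0 (congrArg Subtype.val h)
  have hfO : ∀ v, ((fL : levelField M q Sl) : Fb (M * q)) ∈ (setup Dt).O v := fun v => (hfu v).1
  have hfO' : ∀ v, ((fL⁻¹ : levelField M q Sl) : Fb (M * q)) ∈ (setup Dt).O v := fun v =>
    inv_mem_of_res_ne_zero (setup Dt) (hfu v).1 (hfu v).2
  have hgfL : ((I.g fL : levelField M q Sl) : Fb (M * q)) = gal (M * q) s • f := I.hg fL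
  have hgO : ∀ v, ((I.g fL : levelField M q Sl) : Fb (M * q)) ∈ (setup Dt).O v := fun v => by
    rw [hgfL]
    exact (hgO_iff v f).mpr (hfO v)
  have hgO' : ∀ v, ((I.g fL⁻¹ : levelField M q Sl) : Fb (M * q)) ∈ (setup Dt).O v := fun v => by
    rw [I.hg]
    exact (hgO_iff v _).mpr (hfO' v)
  -- no zeros or poles in the tubes of the nodes
  have hDzero : ∀ Q : Place Kb (Fb (M * q)), ¬ (setup Dt).IsSmoothPlace Q →
      (D : Divisor Kb (Fb (M * q))) Q = 0 := fun Q hQ => by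
    by_contra h0
    exact hQ (hDsm Q (Finsupp.mem_support_iff.mpr h0))
  have hft : ∀ e Q, (setup Dt).r Q = ⟨(setup Dt).src e, (setup Dt).s₁ e⟩ →
      Q.ord ((fL : levelField M q Sl) : Fb (M * q)) = 0 := fun e Q hQ => by
    have h1 := hDf Q
    rw [Finsupp.smul_apply, hDzero Q (((setup Dt).not_isSmoothPlace_iff Q).2 ⟨e, hQ⟩),
      smul_zero] at h1
    exact h1.symm
  -- the twisted function
  have hcoe : ((I.g fL * fL⁻¹ ^ a : levelField M q Sl) : Fb (M * q)) =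
      gal (M * q) s • f * f⁻¹ ^ a := by
    rw [Subfield.coe_mul, SubmonoidClass.coe_pow, Subfield.coe_inv, hgfL]
  have hO'v : ∀ v, ((I.g fL * fL⁻¹ ^ a : levelField M q Sl) : Fb (M * q)) ∈ (setup Dt).O v :=
    fun v => by
      rw [Subfield.coe_mul, SubmonoidClass.coe_pow]
      exact mul_mem (hgO v) (pow_mem (hfO' v) a)
  have hO' : ((I.g fL * fL⁻¹ ^ a : levelField M q Sl) : Fb (M * q)) ∈ (setup Dt).Oall :=
    (setup Dt).mem_Oall.2 hO'v
  have hgf0 : I.g fL ≠ 0 := (map_ne_zero I.g).mpr hfL0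
  have hf'0 : ((I.g fL * fL⁻¹ ^ a : levelField M q Sl) : Fb (M * q)) ≠ 0 := by
    intro h0
    have : (I.g fL * fL⁻¹ ^ a : levelField M q Sl) = 0 := Subtype.ext h0
    exact mul_ne_zero hgf0 (pow_ne_zero a (inv_ne_zero hfL0)) this
  have hfu'v : ∀ v, (setup Dt).res v ⟨((I.g fL * fL⁻¹ ^ a : levelField M q Sl) : Fb (M * q)),
      hO'v v⟩ ≠ 0 := fun v => by
    refine res_ne_zero_of_inv_mem (setup Dt) hf'0 (hO'v v) ?_
    have e : (((I.g fL * fL⁻¹ ^ a : levelField M q Sl) : Fb (M * q)))⁻¹ =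
        ((I.g fL⁻¹ * fL ^ a : levelField M q Sl) : Fb (M * q)) := by
      rw [← Subfield.coe_inv]
      congr 1
      rw [mul_inv, ← map_inv₀, inv_pow, inv_inv]
    rw [e, Subfield.coe_mul, SubmonoidClass.coe_pow]
    exact mul_mem (hgO' v) (pow_mem (hfO v) a)
  -- the twisted divisor
  have hD'coe : (gal (M * q) s • (D : Divisor Kb (Fb (M * q))) -
      a • (D : Divisor Kb (Fb (M * q)))) =
      ((SemilinearAut.degZeroSMulHom (gal (M * q) s) D - a • D :
        Divisor.degZero (K := Kb) (F := Fb (M * q))) : Divisor Kb (Fb (M * q))) := rfl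
  have hdeg0 : Divisor.degree (gal (M * q) s • (D : Divisor Kb (Fb (M * q))) -
      a • (D : Divisor Kb (Fb (M * q)))) = 0 := by
    rw [hD'coe]
    exact Divisor.mem_degZero.mp (Subtype.coe_prop _)
  have hD'supp : ∀ Q ∈ (gal (M * q) s • (D : Divisor Kb (Fb (M * q))) -
      a • (D : Divisor Kb (Fb (M * q)))).support,
      (setup Dt).IsSmoothPlace Q ∧ Rt.Rat Sl Q := fun Q hQ => by
    rw [Finsupp.mem_support_iff, Finsupp.sub_apply, Finsupp.smul_apply,
      SemilinearAut.divisor_smul_apply] at hQ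
    by_cases h1 : (D : Divisor Kb (Fb (M * q))) ((gal (M * q) s)⁻¹ • Q) = 0
    · have h2 : (D : Divisor Kb (Fb (M * q))) Q ≠ 0 := by
        intro h2
        rw [h1, h2, smul_zero, sub_zero] at hQ
        exact hQ rfl
      exact ⟨hDsm Q (Finsupp.mem_support_iff.mpr h2), hDrat Q (Finsupp.mem_support_iff.mpr h2)⟩
    · have h2 := Finsupp.mem_support_iff.mpr h1
      have e : gal (M * q) s • ((gal (M * q) s)⁻¹ • Q) = Q := smul_inv_smul _ _
      rw [← e]
      exact ⟨(isSmoothPlace_gal_smul Dt hs _).mpr (hDsm _ h2),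
        Rt.gal_smul Sl hgal s hs _ (hDsm _ h2) (hDrat _ h2)⟩
  have hsuppadd : ∀ (E : Divisor Kb (Fb (M * q))),
      (∀ Q ∈ E.support, (setup Dt).IsSmoothPlace Q) →
      (∀ Q ∈ E.support, Rt.Rat Sl Q) →
      ∀ Q ∈ (-(gal (M * q) s • (D : Divisor Kb (Fb (M * q))) -
        a • (D : Divisor Kb (Fb (M * q)))) + E).support,
        (setup Dt).IsSmoothPlace Q ∧ Rt.Rat Sl Q := fun E hEs hEr Q hQ => by
    rw [Finsupp.mem_support_iff, Finsupp.add_apply, Finsupp.neg_apply] at hQ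
    by_cases h1 : (gal (M * q) s • (D : Divisor Kb (Fb (M * q))) -
        a • (D : Divisor Kb (Fb (M * q)))) Q = 0
    · have h2 : E Q ≠ 0 := by
        intro h2
        rw [h1, h2, neg_zero, add_zero] at hQ
        exact hQ rfl
      exact ⟨hEs Q (Finsupp.mem_support_iff.mpr h2), hEr Q (Finsupp.mem_support_iff.mpr h2)⟩
    · exact hD'supp Q (Finsupp.mem_support_iff.mpr h1)
  have hadm : P.X.Adm (-(gal (M * q) s • (D : Divisor Kb (Fb (M * q))) -
      a • (D : Divisor Kb (Fb (M * q))))) := P.adm _ fun Q hQ => by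
    rw [Finsupp.support_neg] at hQ
    exact hD'supp Q hQ
  have hadm₀ := P.adm _ (hsuppadd E₀ hE₀sm hE₀rat)
  have hadm₁ := P.adm _ (hsuppadd E₁ hE₁sm hE₁rat)
  -- the divisor of the twisted function
  have hord : ∀ Q : Place Kb (Fb (M * q)),
      Q.ord (((I.g fL * fL⁻¹ ^ a : levelField M q Sl) : Fb (M * q))) =
      (n : ℤ) * (gal (M * q) s • (D : Divisor Kb (Fb (M * q))) -
        a • (D : Divisor Kb (Fb (M * q)))) Q := fun Q => by
    have hgf0' : gal (M * q) s • f ≠ 0 := by rwa [Ne, smul_eq_zero_iff_eq]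
    rw [hcoe, Q.ord_mul hgf0' (pow_ne_zero a (inv_ne_zero hf0)), ← zpow_natCast,
      Place.ord_zpow, Q.ord_inv, Finsupp.sub_apply, Finsupp.smul_apply,
      SemilinearAut.divisor_smul_apply]
    have h1 := hDf ((gal (M * q) s)⁻¹ • Q)
    have h2 := SemilinearAut.ord_smul (gal (M * q) s) ((gal (M * q) s)⁻¹ • Q) f
    rw [smul_inv_smul] at h2
    have h3 := hDf Q
    rw [Finsupp.smul_apply] at h1 h3
    rw [h2, ← h1, ← h3]
    simp only [nsmul_eq_mul]
    ring
  -- the disc factorisation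
  have hfac : ∀ x : Σ v : Fin 2, Place kB ((fun _ : Fin 2 => FtM) v), ¬ (setup Dt).IsBranch x →
      ∃ u : P.X.Dk x, IsUnit u ∧
        P.X.dT x u = P.X.bT x (P.X.ofRatAt x.1 (I.g fL * fL⁻¹ ^ a)
          ((setup Dt).mem_Oall.1 hO' x.1)) *
          P.X.pole (-(gal (M * q) s • (D : Divisor Kb (Fb (M * q))) -
            a • (D : Divisor Kb (Fb (M * q))))) x ^ n := fun x hx =>
    P.discUnit _ hadm x hx (I.g fL * fL⁻¹ ^ a) _ (hfu'v x.1) fun Q _ => by
      rw [hord Q, Finsupp.neg_apply, mul_neg, neg_neg]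
  have hϖ : ∃ c : Kb, IsModulus B c ∧
      ((levelUnif M hB Sl : levelField M q Sl) : Fb (M * q)) = algebraMap Kb (Fb (M * q)) c :=
    ⟨_, isModulus_unif Sl, rfl⟩
  exact principal_twist (isRankOne Dt) (Fermat.Agent.Val.riemannPkg_bar (M * q))
    ((setup Dt).twoLatticeProp (isModulus_unif (hB := hB) ∅)) hϖ hn P.link I.σ a I.hσ I.g I.twist
    fL hfL0 hfO hfO' hgO hft y hy hO' ⟨0, hfu'v 0⟩ _ E₀ E₁ hdeg0 hE₀ hE₁ hdisj
    (fun Q hQ => (hD'supp Q hQ).1) hE₀sm hE₁sm hadm hadm₀ hadm₁ hl₀ hl₁ hfac P.discRoot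

/-- the twisted divisor has degree zero -/
theorem degree_twist {K F : Type*} [Field K] [Field F] [Algebra K F] (g : SemilinearAut K F)
    (D : Divisor.degZero (K := K) (F := F)) (a : ℕ) :
    Divisor.degree (g • (D : Divisor K F) - a • (D : Divisor K F)) = 0 := by
  have e : (g • (D : Divisor K F) - a • (D : Divisor K F)) =
      ((SemilinearAut.degZeroSMulHom g D - a • D : Divisor.degZero (K := K) (F := F)) :
        Divisor K F) := rfl
  rw [e]
  exact Divisor.mem_degZero.mp (Subtype.coe_prop _)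

/-- the twisted divisor has smooth support -/
theorem smooth_twist (Dt : ModularData M q B hB hqM) {s : GQ} (hs : s ∈ B.inertiaSubgroupIn ℚ)
    (D : Divisor Kb (Fb (M * q))) (hDsm : ∀ Q ∈ D.support, (setup Dt).IsSmoothPlace Q) (a : ℕ) :
    ∀ Q ∈ (gal (M * q) s • D - a • D).support, (setup Dt).IsSmoothPlace Q := fun Q hQ => by
  rw [Finsupp.mem_support_iff, Finsupp.sub_apply, Finsupp.smul_apply,
    SemilinearAut.divisor_smul_apply] at hQ
  by_cases h1 : D ((gal (M * q) s)⁻¹ • Q) = 0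
  · have h2 : D Q ≠ 0 := by
      intro h2
      rw [h1, h2, smul_zero, sub_zero] at hQ
      exact hQ rfl
    exact hDsm Q (Finsupp.mem_support_iff.mpr h2)
  · have h2 := Finsupp.mem_support_iff.mpr h1
    have e : gal (M * q) s • ((gal (M * q) s)⁻¹ • Q) = Q := smul_inv_smul _ _
    rw [← e]
    exact (isSmoothPlace_gal_smul Dt hs _).mpr (hDsm _ h2)

/-- finitely many smooth places are rational over all large levels -/
theorem exists_level_rat {Dt : ModularData M q B hB hqM} (Rt : RatNotion Dt)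
    (T : Finset (Place Kb (Fb (M * q)))) (hT : ∀ Q ∈ T, (setup Dt).IsSmoothPlace Q) :
    ∃ S₀ : Finset Kb, ∀ Sl : Finset Kb, S₀ ⊆ Sl → ∀ Q ∈ T, Rt.Rat Sl Q := by
  classical
  have h : ∀ Q : Place Kb (Fb (M * q)), ∃ S₀ : Finset Kb, Q ∈ T → ∀ Sl : Finset Kb, S₀ ⊆ Sl →
      Rt.Rat Sl Q := fun Q => by
    by_cases hQ : Q ∈ T
    · obtain ⟨S₀, hS₀⟩ := Rt.exists_level Q (hT Q hQ)
      exact ⟨S₀, fun _ => hS₀⟩
    · exact ⟨∅, fun h => absurd h hQ⟩
  choose S₀ hS₀ using h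
  refine ⟨T.biUnion S₀, fun Sl hSl Q hQ => hS₀ Q hQ Sl ?_⟩
  exact (Finset.subset_biUnion_of_mem S₀ hQ).trans hSl

/-- **STEPS A + B: the top literal from the named outputs of the blocks.** -/
theorem torEps_of (Dt : ModularData M q B hB hqM) (Rt : RatNotion Dt) (hA : StepAOut Dt)
    (hG : GoodRep Dt) (hE : AuxDiv Dt) (hP : LevelPacks Dt Rt) : TorEps Dt := by
  classical
  haveI : NeZero q := ⟨hq.out.ne_zero⟩
  haveI := ResInst.charP_res q B hB
  refine ⟨1, one_ne_zero, fun k s hs x hx hα hβ => ?_⟩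
  rw [one_smul]
  haveI : NeZero (q ^ k) := ⟨pow_ne_zero k hq.out.ne_zero⟩
  -- T1: a good representative
  obtain ⟨D, f, hrep, hDsm, hfu⟩ := hG k x hx
  -- Step A + independence of the representative
  obtain ⟨D₁, f₁, hrep₁, h1, h2⟩ := hA k x hx hα hβ
  have h1' := ApproxPow.of_isRep hrep₁ hrep h1
  have h2' := ApproxPow.of_isRep hrep₁ hrep h2
  -- T6
  refine smul_sub_cyclo_eq_zero_of_principal (q ^ k) s hrep.1 ?_
  -- T2b: the auxiliary divisors of the twisted divisor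
  obtain ⟨E₀, E₁, hE₀, hE₁, hdisj, hE₀sm, hE₁sm, S₂, hS₂⟩ :=
    hE _ (degree_twist (gal (M * q) s) D (cycloExp (q ^ k) s))
      (smooth_twist Dt hs _ hDsm (cycloExp (q ^ k) s))
  -- T2a: a level of rationality of all the points
  obtain ⟨S₃, hS₃⟩ := exists_level_rat Rt
    ((D : Divisor Kb (Fb (M * q))).support ∪ E₀.support ∪ E₁.support) (fun Q hQ => by
      rcases Finset.mem_union.mp hQ with hQ | hQ
      · rcases Finset.mem_union.mp hQ with hQ | hQ
        · exact hDsm Q hQ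
        · exact hE₀sm Q hQ
      · exact hE₁sm Q hQ)
  -- T3 + T4: the level of the packages
  obtain ⟨S₄, hS₄⟩ := hP k
  -- level descent
  obtain ⟨Sl, hSl₀, hgal, hSl⟩ := exists_level_of_approxPow (pow_pos hq.out.pos k) h1' h2'
    (2 * k + 1) (S₂ ∪ S₃ ∪ S₄)
  obtain ⟨hfF, hζ, hr1, hr2⟩ := hSl Sl subset_rfl
  have hS₂l : S₂ ⊆ Sl := (Finset.subset_union_left.trans Finset.subset_union_left).trans hSl₀
  have hS₃l : S₃ ⊆ Sl := (Finset.subset_union_right.trans Finset.subset_union_left).trans hSl₀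
  have hS₄l : S₄ ⊆ Sl := Finset.subset_union_right.trans hSl₀
  obtain ⟨P, hPs⟩ := hS₄ Sl hS₄l hgal hζ
  obtain ⟨I⟩ := hPs s hs (cycloExp (q ^ k) s) fun ζ hζ => cycloExp_spec (q ^ k) s hζ
  -- exact roots in the completions
  have hrat : ∀ v : Fin 2, RatApprox ((setup Dt).O v) (q ^ k) (2 * k + 1) f Sl := by
    intro v
    fin_cases v
    · exact hr1
    · exact hr2
  have hq1 : ∀ v : Fin 2, (q : Fb (M * q)) ∈ ((setup Dt).O v).nonunits := by
    intro v
    fin_cases v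
    · exact natCast_mem_nonunits_O1 B hB
    · exact natCast_mem_nonunits_O2 B hB hqM
  have hroot : ∀ v : Fin 2, ∃ y : P.X.Oh v, y ^ (q ^ k) = P.X.ofRatAt v ⟨f, hfF⟩ (hfu v).1 := by
    intro v
    obtain ⟨w, -, hw⟩ := (hrat v).exists_root (by omega) (hq1 v) (levelField M q Sl) le_rfl
      (P.adic v) (P.X.emb v) (P.X.emb_mem_iff v) hfF
    have hwO : w ∈ P.X.Oh v := by
      refine mem_of_pow_mem (P.X.Oh v) (pow_ne_zero k hq.out.ne_zero) ?_
      rw [← hw]
      exact (P.X.emb_mem_iff v ⟨f, hfF⟩).2 (hfu v).1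
    exact ⟨⟨w, hwO⟩, Subtype.ext hw.symm⟩
  choose y hy using hroot
  have hT : ∀ Q, Q ∈ (D : Divisor Kb (Fb (M * q))).support ∪ E₀.support ∪ E₁.support →
      Rt.Rat Sl Q := fun Q hQ => hS₃ Sl hS₃l Q hQ
  exact principal_of_levelPack Dt hgal (pow_ne_zero k hq.out.ne_zero) P hs I D f hrep.2.2
    hrep.2.1 hDsm
    (fun Q hQ => hT Q (Finset.mem_union_left _ (Finset.mem_union_left _ hQ))) hfu hfF y hy
    E₀ E₁ hE₀ hE₁ hdisj hE₀sm hE₁sm
    (fun Q hQ => hT Q (Finset.mem_union_left _ (Finset.mem_union_right _ hQ)))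
    (fun Q hQ => hT Q (Finset.mem_union_right _ hQ)) (hS₂ Sl hS₂l).1 (hS₂ Sl hS₂l).2

end Fermat.Agent.FF3.StepB
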