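import Fermat.Agent.FF3.StepB.Pack
import Fermat.Agent.FF3.AbsB.Galois
import Fermat.Agent.FF3.DiscInst.Plug
import Fermat.Agent.FF3.DiscInst.CompDatum
import Fermat.Agent.FF3.ExpPackComp.TwistFinal
import Fermat.Agent.FF3.ExpPackComp.TwistInst
import Fermat.Agent.FF3.LevelDesc.RootsPack
import Fermat.Agent.FF3.GlueNode.RootWS
import Fermat.Agent.FF3.InertiaLevels.Basic

/-!
# PROGRAMME I, Step B, nodes T3 + T4: the packages of the levels of the modular tower (helper22)

`levelPacks_of` : `LevelPacks Dt Rt` from the two families of NODE instances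

* `N`   : the node input `NodeInput Dt (compDt Dt Sl) ↥(WS B q Sl) (cO Sl) n e` at every crossing
          (helper28 + helper16 + helper20), and
* `act` : the action `NodeAction (N …) (sigmaWS …) (sigmaDt …)` of an inertia element on it
          (helper29 + helper5),

everything else being plugged here: the component part `compDt Dt Sl` (helper24's `compDatum`
through `CompPack.ofDatum`), `adic` (helper14), the disc parts with DISC-UNIT and DISC-ROOT
(helper24's `DiscInst.discPartU` = helper25's `discPartUOfDatum` + helper26 + helper11), the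
constants `W' := WS B q Sl` with the action `sigmaWS` of inertia, the action `galFHom` on the level
field and `sigmaF` on the completed component rings (helper21), `(Ω, j) := (OmegaB, ι)` (helper2).
-/

set_option autoImplicit false
set_option linter.unusedSectionVars false
set_option linter.style.haveILetI false

noncomputable section

set_option synthInstance.maxHeartbeats 400000

namespace Fermat.Agent.FF3.StepB

open ModularCurve AlgebraicCurve IsLocalRing
open Fermat.Agent.Red Fermat.Agent.X0 Fermat.Agent.Hecke Fermat.Agent.BR.SS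
open Fermat.Agent.BR.Final Fermat.Agent.BR2 Fermat.Agent.BR2.SetupOfData
open Fermat.Agent.BR Fermat.Agent.Pseudo Fermat.Agent.BR.Inst.Levels
open Fermat.Agent.BR.Inst.FKCover Fermat.Agent.BR.S0 Fermat.Agent.BR.S0.PointDict
open Fermat.Agent.BR.S0.RedModular Fermat.Agent.BR.TwoVal Fermat.Agent.BR.ValTwo
open Fermat.Agent.FF3.StepA Fermat.Agent.FF3.LevelDesc Fermat.Agent.FF3.B4 Fermat.Agent.FF3

local notation "GQ" => (AlgebraicClosure ℚ ≃ₐ[ℚ] AlgebraicClosure ℚ)

variable {M q : ℕ} [NeZero M] [hq : Fact q.Prime]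
variable {B : ValuationSubring Kb} {hB : B.LiesOverPrime q} {hqM : ¬ q ∣ M}
variable [IsAlgClosed (ResidueField B)]

local notation "kB" => IsLocalRing.ResidueField B
local notation "FtM" => modularFunctionFieldFullC (IsLocalRing.ResidueField B) M

/-! ### the component part -/

/-- **the component part at the level `Sl`**: helper24's component data. -/
def compDt (Dt : ModularData M q B hB hqM) (Sl : Finset Kb) :
    CompPack.{0, 0, 0, 0, 0, 0, 0} (setup Dt) (levelField M q Sl) (levelUnif M hB Sl) :=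
  CompPack.ofDatum (setup Dt) (fun v => DiscInst.compDatum B hB hqM v Sl)
    (fun _ _ => Iff.rfl) (fun _ => rfl)

theorem adic_compDt (Dt : ModularData M q B hB hqM) (Sl : Finset Kb) (v : Fin 2) :
    IsAdicDVR ((compDt Dt Sl).Oh v) ((compDt Dt Sl).unif v) :=
  LevelDesc.isAdicDVR_ofDatum (setup Dt) _ _ _ v

/-! ### the disc parts -/

section Generic

universe u₁ u₂ u₃ u₄ u₅ u₆ w

variable {K : Type u₁} {F : Type u₂} {k : Type u₃} [Field K] [Field F] [Algebra K F] [Field k]
  {A : ValuationSubring K} {π : A →+* k} {ι : Type u₄} {Ft : ι → Type u₅}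
  [∀ v, Field (Ft v)] [∀ v, Algebra k (Ft v)] {ν : Type u₆}
  {S : SemistableSetup (F := F) A π ι Ft ν} {F₀ : Subfield F} {ϖ : F₀}

/-- helper25's `DiscPartU` is the disc input -/
def DiscInput.ofPartU {C : CompPack.{u₁, u₂, u₃, u₄, u₅, u₆, w} S F₀ ϖ}
    {Adm : Divisor K F → Prop} {n : ℕ} {x : Σ v, Place k (Ft v)}
    (D : ExpandDisc.DiscPartU C Adm x n) : DiscInput C Adm n x where
  toDiscPart := D.toDiscPart
  disc_unit := fun E' h hx => D.unit hx E' h
  disc_root := D.root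

end Generic

/-! ### the plug-in `(Ω, j)` -/

/-- the exponent is invertible in `Ω` -/
theorem natCast_omega_ne_zero {n : ℕ} (hn : n ≠ 0) :
    ((n : ℕ) : AbsB.OmegaB B hB) ≠ 0 := by
  have h1 : ((n : ℕ) : AbsB.OmegaB B hB) = (AbsB.datumKb B hB).ι ((n : ℕ) : Kb) := by
    rw [map_natCast]
  rw [h1]
  intro h0
  have h2 := (AbsB.datumKb B hB).ι_injective (h0.trans (map_zero _).symm)
  exact hn (by exact_mod_cast h2)

/-- **the disc inputs at the level `Sl`** (helper24's DISC-PLUG) -/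
def discDt (Dt : ModularData M q B hB hqM) (Rt : RatNotion Dt)
    (hRt : ∀ Sl P, Rt.Rat Sl P → RatPlace M q (KS q Sl) P) (Sl : Finset Kb) {n : ℕ} (hn : n ≠ 0)
    (x : Σ _ : Fin 2, Place kB FtM) :
    DiscInput (compDt Dt Sl) (AdmOf Rt Sl) n x :=
  DiscInput.ofPartU
    (DiscInst.discPartU Dt Sl (ϖ := levelUnif M hB Sl) rfl
      (fun v => DiscInst.compDatum B hB hqM v Sl) (fun _ _ => Iff.rfl) (fun _ => rfl)
      (AbsB.datumKb B hB).ι (fun _ => (AbsB.datumKb B hB).norm_ι_le_one_iff)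
      (AdmOf Rt Sl) (fun _ hE' P hP => hRt Sl P (hE' P hP).2) n
      (natCast_omega_ne_zero hn) x)

/-! ### the action of inertia -/

/-- the action of an inertia element on the integers of the constants of a Galois-stable level -/
def sigmaWS {Sl : Finset Kb} (hS : GalStable Sl) {s : GQ} (hs : s ∈ B.inertiaSubgroupIn ℚ) :
    ↥(WS B q Sl) →+* ↥(WS B q Sl) :=
  (((s : Kb ≃ₐ[ℚ] Kb) : Kb →+* Kb).comp (WS B q Sl).subtype).codRestrict (WS B q Sl) (fun c =>
    mem_WS_iff.mpr ⟨(InertiaLevels.apply_mem_iff B hs _).mpr (mem_WS_iff.mp c.2).1,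
      (hS.map_mem_KS q s).mpr (mem_WS_iff.mp c.2).2⟩)

@[simp] theorem coe_sigmaWS {Sl : Finset Kb} (hS : GalStable Sl) {s : GQ}
    (hs : s ∈ B.inertiaSubgroupIn ℚ) (c : ↥(WS B q Sl)) :
    ((sigmaWS hS hs c : ↥(WS B q Sl)) : Kb) = s (c : Kb) := rfl

/-- the action of an inertia element on the completed component rings (helper21) -/
def sigmaDt (Dt : ModularData M q B hB hqM) (Sl : Finset Kb) (hS : GalStable Sl) {s : GQ}
    (hs : s ∈ B.inertiaSubgroupIn ℚ) (v : Fin 2) :
    (compDt Dt Sl).Oh v →+* (compDt Dt Sl).Oh v :=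
  ExpPackComp.sigmaF B hB hqM Sl (nonempty_crossing Dt)
    (fun v => DiscInst.compDatum B hB hqM v Sl) (fun _ _ => Iff.rfl) (fun _ => rfl) hs
    (ExpPackComp.galStable_of_levelDesc hS q s) v

/-! ### the packages -/

/-- **T3 + T4 from the node instances.** -/
theorem levelPacks_of (Dt : ModularData M q B hB hqM) (Rt : RatNotion Dt)
    (hRt : ∀ Sl P, Rt.Rat Sl P → RatPlace M q (KS q Sl) P)
    (cO : ∀ (Sl : Finset Kb) v, ↥(WS B q Sl) →+* (compDt Dt Sl).Oh v)
    (N : ∀ (Sl : Finset Kb) (n : ℕ), n ≠ 0 → ∀ ζ₀ : ↥(WS B q Sl), IsPrimitiveRoot ζ₀ n →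
      ∀ e, NodeInput Dt (compDt Dt Sl) ↥(WS B q Sl) (cO Sl) n e)
    (act : ∀ (Sl : Finset Kb) (n : ℕ) (hn : n ≠ 0) (ζ₀ : ↥(WS B q Sl))
      (hζ₀ : IsPrimitiveRoot ζ₀ n) (hS : GalStable Sl) (s : GQ)
      (hs : s ∈ B.inertiaSubgroupIn ℚ) (e : Crossing (chartDataModular B hB hqM)),
      NodeAction (N Sl n hn ζ₀ hζ₀ e) (sigmaWS hS hs) (sigmaDt Dt Sl hS hs)) :
    LevelPacks Dt Rt := by
  intro k
  have hn : q ^ k ≠ 0 := pow_ne_zero _ hq.out.ne_zero
  refine ⟨∅, fun Sl _ hS hζ => ?_⟩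
  obtain ⟨ζ₀, hζ₀, -⟩ := GlueNode.exists_isPrimitiveRoot_WS B hn hζ
  refine ⟨LevelPack.ofInputs Dt Rt Sl hn (compDt Dt Sl) (adic_compDt Dt Sl) ↥(WS B q Sl) (cO Sl)
    hζ₀ (N Sl (q ^ k) hn ζ₀ hζ₀) (discDt Dt Rt hRt Sl hn), fun s hs a ha => ⟨?_⟩⟩
  refine InertiaPack.ofInputs Dt Rt Sl hn (compDt Dt Sl) (adic_compDt Dt Sl) ↥(WS B q Sl) (cO Sl)
    hζ₀ (N Sl (q ^ k) hn ζ₀ hζ₀) (discDt Dt Rt hRt Sl hn) s a (sigmaWS hS hs) ?_
    (ExpPackComp.galFHom (M := M) Sl (ExpPackComp.galStable_of_levelDesc hS q s))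
    (fun _ => rfl) (sigmaDt Dt Sl hS hs) ?_ (act Sl (q ^ k) hn ζ₀ hζ₀ hS s hs)
  · intro ξ hξ
    refine Subtype.ext ?_
    have h1 : ((ξ : ↥(WS B q Sl)) : Kb) ^ (q ^ k) = 1 := by
      have := congrArg (Subtype.val) hξ
      simpa using this
    simpa using ha _ h1
  · intro v h hO hO'
    exact ExpPackComp.sigmaF_ofRatAt B hB hqM Sl (nonempty_crossing Dt)
      (fun v => DiscInst.compDatum B hB hqM v Sl) (fun _ _ => Iff.rfl) (fun _ => rfl) hs
      (ExpPackComp.galStable_of_levelDesc hS q s) v h hO hO'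

end Fermat.Agent.FF3.StepB
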