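import Fermat.Agent.FF3.GlueNode.Abstract
import Fermat.Agent.FF3.Glue.Frame

/-!
# PROGRAMME I, Step B: the gluing node over a SMALLER ring of constants (helper22)

helper28's `GlueNode.NodeRings K R B1 B2 n` (node ring and boundary rings over the COMPLETE field of
constants `K`) gives a `Glue.Node` whose constants are `K` itself; the component rings then have to
receive `K`.  For the modular instance the component rings are the completed valuation rings
`Oh v` of the level, which only receive the ring of integers `W'` of the (uncompleted) constants of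
the level.  `NodeRings.toNodeOver` is the `Glue.Node` over any ring of constants `φ : W' →+* K`
containing a primitive `n`-th root of unity: nothing else of `K` is used by the gluing argument.
-/

set_option autoImplicit false

namespace Fermat.Agent.FF3.GlueNode

open Fermat.Agent.FF3

variable {K R B1 B2 : Type*} [Field K] [CommRing R] [CommRing B1] [CommRing B2] {n : ℕ}
  {W' Oi Oz : Type*} [CommRing W'] [CommRing Oi] [CommRing Oz] [IsDomain B1] [IsDomain B2]

/-- The gluing node of `NodeRings` over a ring of constants `φ : W' →+* K`. -/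
def NodeRings.toNodeOver (D : NodeRings K R B1 B2 n) (φ : W' →+* K) (hφ : Function.Injective φ)
    (hn : n ≠ 0) {ζ : W'} (hζ : IsPrimitiveRoot ζ n) (cOi : W' →+* Oi) (cOz : W' →+* Oz)
    (b1 : Oi →+* B1) (b2 : Oz →+* B2)
    (comm1 : ∀ c : W', D.a1 (D.cR (φ c)) = b1 (cOi c))
    (comm2 : ∀ c : W', D.a2 (D.cR (φ c)) = b2 (cOz c)) :
    Glue.Node W' R B1 B2 Oi Oz n where
  cR := D.cR.comp φ
  cOi := cOi
  cOz := cOz
  a1 := D.a1
  a2 := D.a2
  b1 := b1
  b2 := b2
  comm1 := comm1
  comm2 := comm2
  a1_inj := D.a1_inj
  const_inj1 := fun _ _ h => hφ (D.const_inj1 h)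
  const_inj2 := fun _ _ h => hφ (D.const_inj2 h)
  roots1 := fun _ hy =>
    Glue.exists_const_of_pow_eq_one ((D.a1.comp D.cR).comp φ)
      (fun _ _ h => hφ ((D.a1.comp D.cR).injective h)) hn hζ hy
  roots2 := fun _ hy =>
    Glue.exists_const_of_pow_eq_one ((D.a2.comp D.cR).comp φ)
      (fun _ _ h => hφ ((D.a2.comp D.cR).injective h)) hn hζ hy
  birkhoff := D.birkhoff

end Fermat.Agent.FF3.GlueNode
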