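import Fermat.Agent.FF3.StepB.Defs
import Fermat.Agent.FF3.StepB.NodeConst
import Fermat.Agent.FF3.B4.Parts

/-!
# PROGRAMME I, Step B, node T3: the package of a level from its parts (helper22)

`LevelPack.ofInputs` : the `LevelPack Dt Rt Sl n` of `FF3/StepB/Defs.lean` from

* `C`     : the component part (helper21's `ExpPackComp.compPack`), with `adicC` (helper14's
            `isAdicDVR_dvCompl`);
* `W'`    : a ring of constants of the level with maps `cO v : W' →+* C.Oh v` and a primitive `n`-th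
            root of unity (the ring of integers `WS B q Sl` of the constants of the level);
* `N e`   : `NodeInput` = helper28's `GlueNode.NodeRings K R Bd Bd n` (node ring `R = NodeB π`,
            boundary ring `Bd = BAmice K`, over the complete constants `K ⊇ W'`) + the boundary maps
            `b1 : C.Oh 0 →+* Bd`, `b2 : C.Oh 1 →+* Bd` + the three node facts of `B4.NodePart`;
* `Dd x`  : `DiscInput` = `B4.DiscPart` + DISC-UNIT + DISC-ROOT.

The gluing frame is `Fr.node e := (N e).rings.toNodeOver …` over the constants `W'`, with component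
rings `C.Oh 0`, `C.Oh 1`; the node rings of the package ARE those of the frame, so the `FrameLink`
is trivial.
-/

set_option autoImplicit false
set_option linter.unusedSectionVars false
set_option linter.style.haveILetI false

noncomputable section

set_option synthInstance.maxHeartbeats 400000

namespace Fermat.Agent.FF3.StepB

open ModularCurve AlgebraicCurve IsLocalRing
open Fermat.Agent.Red Fermat.Agent.X0 Fermat.Agent.Hecke Fermat.Agent.BR.SS
open Fermat.Agent.BR.Final Fermat.Agent.BR2 Fermat.Agent.BR2.SetupOfData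
open Fermat.Agent.BR Fermat.Agent.Pseudo Fermat.Agent.BR.Inst.Levels
open Fermat.Agent.BR.Inst.FKCover Fermat.Agent.BR.S0 Fermat.Agent.BR.S0.PointDict
open Fermat.Agent.BR.S0.RedModular Fermat.Agent.BR.TwoVal Fermat.Agent.BR.ValTwo
open Fermat.Agent.FF3.StepA Fermat.Agent.FF3.LevelDesc Fermat.Agent.FF3.B4 Fermat.Agent.FF3

/-! ### generic: the disc input -/

section Generic

universe u₁ u₂ u₃ u₄ u₅ u₆ w

variable {K : Type u₁} {F : Type u₂} {k : Type u₃} [Field K] [Field F] [Algebra K F] [Field k]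
  {A : ValuationSubring K} {π : A →+* k} {ι : Type u₄} {Ft : ι → Type u₅}
  [∀ v, Field (Ft v)] [∀ v, Algebra k (Ft v)] {ν : Type u₆}
  {S : SemistableSetup (F := F) A π ι Ft ν} {F₀ : Subfield F} {ϖ : F₀}

/-- **The disc input at the closed point `x`**: the disc part of `B4/Parts.lean` with DISC-UNIT
and DISC-ROOT (the disc root lemma L11) for the exponent `n`. -/
structure DiscInput (C : CompPack.{u₁, u₂, u₃, u₄, u₅, u₆, w} S F₀ ϖ)
    (Adm : Divisor K F → Prop) (n : ℕ) (x : Σ v, Place k (Ft v)) extends DiscPart C Adm x where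
  /-- a function of the level, unit on the component, with divisor `-n E'` in the disc -/
  disc_unit : ∀ E' : Divisor K F, Adm E' → ¬ S.IsBranch x →
    ∀ (h : F₀) (hO : (h : F) ∈ S.O x.1), S.res x.1 ⟨h, hO⟩ ≠ 0 →
    (∀ P, S.r P = x → P.ord (h : F) = -((n : ℤ) * E' P)) →
    ∃ u : Dk, IsUnit u ∧ dT u = bT (C.ofRatAt x.1 h hO) * pole E' ^ n
  /-- the disc root lemma -/
  disc_root : ¬ S.IsBranch x → ∀ u : Dk, IsUnit u → ∀ z : ET, z ^ n = dT u → ∃ t : Dk, dT t = z

end Generic

/-! ### the modular instance -/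

local notation "GQ" => (AlgebraicClosure ℚ ≃ₐ[ℚ] AlgebraicClosure ℚ)

variable {M q : ℕ} [NeZero M] [hq : Fact q.Prime]
variable {B : ValuationSubring Kb} {hB : B.LiesOverPrime q} {hqM : ¬ q ∣ M}
variable [IsAlgClosed (ResidueField B)]

local notation "kB" => IsLocalRing.ResidueField B
local notation "FtM" => modularFunctionFieldFullC (IsLocalRing.ResidueField B) M

/-- the admissible divisors of the level `Sl` for the notion of rationality `Rt` -/
def AdmOf {Dt : ModularData M q B hB hqM} (Rt : RatNotion Dt) (Sl : Finset Kb)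
    (E' : Divisor Kb (Fb (M * q))) : Prop :=
  ∀ P ∈ E'.support, (setup Dt).IsSmoothPlace P ∧ Rt.Rat Sl P

/-- **The node input at the crossing `e`** (component `0` is the source, `1` the target). -/
structure NodeInput (Dt : ModularData M q B hB hqM) {Sl : Finset Kb}
    (C : CompPack.{0, 0, 0, 0, 0, 0, 0} (setup Dt) (levelField M q Sl) (levelUnif M hB Sl))
    (W' : Type) [CommRing W'] (cO : ∀ v, W' →+* C.Oh v) (n : ℕ)
    (e : Crossing (chartDataModular B hB hqM)) where
  /-- the complete field of constants -/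
  K : Type
  [instK : Field K]
  /-- the node ring (uniformiser inverted) -/
  R : Type
  [instR : CommRing R]
  /-- the boundary ring -/
  Bd : Type
  [instBd : CommRing Bd]
  [domBd : IsDomain Bd]
  rings : GlueNode.NodeRings K R Bd Bd n
  φ : W' →+* K
  φ_inj : Function.Injective φ
  b1 : C.Oh 0 →+* Bd
  b2 : C.Oh 1 →+* Bd
  comm1 : ∀ c : W', rings.a1 (rings.cR (φ c)) = b1 (cO 0 c)
  comm2 : ∀ c : W', rings.a2 (rings.cR (φ c)) = b2 (cO 1 c)
  node_rat : ∀ (h : levelField M q Sl) (h₁ : (h : Fb (M * q)) ∈ (setup Dt).O 0)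
    (h₂ : (h : Fb (M * q)) ∈ (setup Dt).O 1),
    (∀ P, (setup Dt).r P = ⟨(setup Dt).src e, (setup Dt).s₁ e⟩ → 0 ≤ P.ord (h : Fb (M * q))) →
    ∃ r : R, rings.a1 r = b1 (C.ofRatAt 0 h h₁) ∧ rings.a2 r = b2 (C.ofRatAt 1 h h₂)
  node_red : ∀ (r : R) (y₁ : C.Oh 0) (y₂ : C.Oh 1), rings.a1 r = b1 y₁ → rings.a2 r = b2 y₂ →
    ∃ c : kB, IsValueAt ((setup Dt).s₁ e) (C.resh 0 y₁) c ∧
      IsValueAt ((setup Dt).s₂ e) (C.resh 1 y₂) c
  node_div : ∀ (r : R) (y₁ : C.Oh 0) (y₂ : C.Oh 1),
    rings.a1 r = b1 (C.unif 0 * y₁) → rings.a2 r = b2 (C.unif 1 * y₂) →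
    ∃ r' : R, rings.a1 r' = b1 y₁ ∧ rings.a2 r' = b2 y₂

attribute [instance] NodeInput.instK NodeInput.instR NodeInput.instBd NodeInput.domBd

namespace NodeInput

variable {Dt : ModularData M q B hB hqM} {Sl : Finset Kb}
  {C : CompPack.{0, 0, 0, 0, 0, 0, 0} (setup Dt) (levelField M q Sl) (levelUnif M hB Sl)}
  {W' : Type} [CommRing W'] {cO : ∀ v, W' →+* C.Oh v} {n : ℕ}
  {e : Crossing (chartDataModular B hB hqM)}

/-- the node part of the expansion package -/
def toNodePart (N : NodeInput Dt C W' cO n e) : NodePart C e where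
  R := N.R
  B1 := N.Bd
  B2 := N.Bd
  a1 := N.rings.a1
  a2 := N.rings.a2
  b1 := N.b1
  b2 := N.b2
  node_rat := N.node_rat
  node_red := N.node_red
  node_div := N.node_div

/-- the gluing node over the constants `W'` -/
def toNode (N : NodeInput Dt C W' cO n e) (hn : n ≠ 0) {ζ : W'} (hζ : IsPrimitiveRoot ζ n) :
    Glue.Node W' N.R N.Bd N.Bd (C.Oh 0) (C.Oh 1) n :=
  N.rings.toNodeOver N.φ N.φ_inj hn hζ (cO 0) (cO 1) N.b1 N.b2 N.comm1 N.comm2

end NodeInput

/-- **T3: the package of the level `Sl` from its parts.** -/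
def LevelPack.ofInputs (Dt : ModularData M q B hB hqM) (Rt : RatNotion Dt) (Sl : Finset Kb)
    {n : ℕ} (hn : n ≠ 0)
    (C : CompPack.{0, 0, 0, 0, 0, 0, 0} (setup Dt) (levelField M q Sl) (levelUnif M hB Sl))
    (adicC : ∀ v, IsAdicDVR (C.Oh v) (C.unif v))
    (W' : Type) [CommRing W'] (cO : ∀ v, W' →+* C.Oh v) {ζ : W'} (hζ : IsPrimitiveRoot ζ n)
    (N : ∀ e, NodeInput Dt C W' cO n e) (Dd : ∀ x, DiscInput C (AdmOf Rt Sl) n x) :
    LevelPack Dt Rt Sl n where
  X := ExpPack.ofParts (hdegOf Dt) C (AdmOf Rt Sl) (fun h P hP => (h P hP).1)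
    (fun e => (N e).toNodePart) (fun x => (Dd x).toDiscPart)
  adm := fun _ h => h
  adic := adicC
  discUnit := fun E' hadm x hx h hO hr ho => (Dd x).disc_unit E' hadm hx h hO hr ho
  discRoot := fun x hx => (Dd x).disc_root hx
  W := W'
  Rf := fun e => (N e).R
  B1f := fun e => (N e).Bd
  B2f := fun e => (N e).Bd
  Fr :=
    { node := fun e => (N e).toNode hn hζ
      cOi := cO 0
      cOz := cO 1
      hcOi := fun _ => rfl
      hcOz := fun _ => rfl }
  link :=
    { toPack := fun _ r _ h1 h2 => ⟨r, h1.symm, h2.symm⟩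
      ofPack := fun _ r' _ h1 h2 => ⟨r', h1, h2⟩ }

/-- **The action of a Galois element on the node input at `e`**: ring endomorphisms of the node
ring and of the boundary ring, semilinear over `σW` on the constants, compatible with the two
expansions and with the action `σh` on the completed valuation rings. -/
structure NodeAction {Dt : ModularData M q B hB hqM} {Sl : Finset Kb}
    {C : CompPack.{0, 0, 0, 0, 0, 0, 0} (setup Dt) (levelField M q Sl) (levelUnif M hB Sl)}
    {W' : Type} [CommRing W'] {cO : ∀ v, W' →+* C.Oh v} {n : ℕ}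
    {e : Crossing (chartDataModular B hB hqM)} (N : NodeInput Dt C W' cO n e)
    (σW : W' →+* W') (σh : ∀ v, C.Oh v →+* C.Oh v) where
  σR : N.R →+* N.R
  σB1 : N.Bd →+* N.Bd
  σB2 : N.Bd →+* N.Bd
  hcR : ∀ c : W', σR (N.rings.cR (N.φ c)) = N.rings.cR (N.φ (σW c))
  ha1 : ∀ r, σB1 (N.rings.a1 r) = N.rings.a1 (σR r)
  ha2 : ∀ r, σB2 (N.rings.a2 r) = N.rings.a2 (σR r)
  hb1 : ∀ y, σB1 (N.b1 y) = N.b1 (σh 0 y)
  hb2 : ∀ y, σB2 (N.b2 y) = N.b2 (σh 1 y)

/-- **T4: the action of an inertia element on the package `LevelPack.ofInputs`.** -/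
def InertiaPack.ofInputs (Dt : ModularData M q B hB hqM) (Rt : RatNotion Dt) (Sl : Finset Kb)
    {n : ℕ} (hn : n ≠ 0)
    (C : CompPack.{0, 0, 0, 0, 0, 0, 0} (setup Dt) (levelField M q Sl) (levelUnif M hB Sl))
    (adicC : ∀ v, IsAdicDVR (C.Oh v) (C.unif v))
    (W' : Type) [CommRing W'] (cO : ∀ v, W' →+* C.Oh v) {ζ : W'} (hζ : IsPrimitiveRoot ζ n)
    (N : ∀ e, NodeInput Dt C W' cO n e) (Dd : ∀ x, DiscInput C (AdmOf Rt Sl) n x)
    (s : GQ) (a : ℕ) (σW : W' →+* W') (hσ : ∀ ξ : W', ξ ^ n = 1 → σW ξ = ξ ^ a)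
    (g : levelField M q Sl →+* levelField M q Sl)
    (hg : ∀ h : levelField M q Sl,
      ((g h : levelField M q Sl) : Fb (M * q)) = gal (M * q) s • (h : Fb (M * q)))
    (σh : ∀ v, C.Oh v →+* C.Oh v)
    (σh_emb : ∀ v (h : levelField M q Sl) (hO : (h : Fb (M * q)) ∈ (setup Dt).O v)
      (hO' : ((g h : levelField M q Sl) : Fb (M * q)) ∈ (setup Dt).O v),
      σh v (C.ofRatAt v h hO) = C.ofRatAt v (g h) hO')
    (act : ∀ e, NodeAction (N e) σW σh) :
    InertiaPack (LevelPack.ofInputs Dt Rt Sl hn C adicC W' cO hζ N Dd) s a where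
  σ :=
    { σW := σW
      σOi := σh 0
      σOz := σh 1
      node := fun e =>
        { σW := σW
          σR := (act e).σR
          σB1 := (act e).σB1
          σB2 := (act e).σB2
          σOi := σh 0
          σOz := σh 1
          hcR := (act e).hcR
          ha1 := (act e).ha1
          ha2 := (act e).ha2
          hb1 := (act e).hb1
          hb2 := (act e).hb2 }
      hW := fun _ => rfl
      hOi := fun _ => rfl
      hOz := fun _ => rfl }
  hσ := hσ
  g := g
  hg := hg
  twist :=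
    { σh := σh
      σh_i₀ := fun _ => rfl
      σh_i₁ := fun _ => rfl
      σh_emb := σh_emb }

end Fermat.Agent.FF3.StepB
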