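import Fermat.Agent.FF3.StepB.Final
import Fermat.Agent.FF3.GlueNode.PackNode
import Fermat.Agent.FF3.NodeBdry.SquareModular
import Fermat.Agent.FF3.NodeBdry.ConstWS

/-!
# PROGRAMME I, Step B, nodes T3 + T4: `LevelPacks Dt Rt` (helper22)

`levelPacks Dt Rt hRt : LevelPacks Dt Rt` for every notion of rationality `Rt` whose rational
places have their values in the constants of the level (`GoodRep.ratNotion Dt`, helper23):
`levelPacks_of` (`FF3/StepB/Final.lean`) at

* the node inputs `GlueNode.nodeInputDt` (helper28 + helper16 + helper20), and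
* the node actions `GlueNode.nodeActionDt` at helper29's `modSigmaR`, `modSigmaB1`, `modSigmaB2`
  with the squares of helper5 (`modSigmaR_iotaWS`, `modSigmaB1_b1`, `modSigmaB2_b2`), the action
  `σΩ := AbsB.sigmaOmegaI` (helper2) of inertia on the completion `Ω` of `ℚ̄`.
-/

set_option autoImplicit false
set_option linter.unusedSectionVars false
set_option linter.style.haveILetI false

noncomputable section

set_option synthInstance.maxHeartbeats 400000
set_option maxHeartbeats 4000000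

namespace Fermat.Agent.FF3.StepB

open ModularCurve AlgebraicCurve IsLocalRing
open Fermat.Agent.Red Fermat.Agent.X0 Fermat.Agent.Hecke Fermat.Agent.BR.SS
open Fermat.Agent.BR.Final Fermat.Agent.BR2 Fermat.Agent.BR2.SetupOfData
open Fermat.Agent.BR Fermat.Agent.Pseudo Fermat.Agent.BR.Inst.Levels
open Fermat.Agent.BR.Inst.FKCover Fermat.Agent.BR.S0 Fermat.Agent.BR.S0.PointDict
open Fermat.Agent.BR.S0.RedModular Fermat.Agent.BR.TwoVal Fermat.Agent.BR.ValTwo
open Fermat.Agent.FF3.StepA Fermat.Agent.FF3.LevelDesc Fermat.Agent.FF3.B4 Fermat.Agent.FF3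

local notation "GQ" => (AlgebraicClosure ℚ ≃ₐ[ℚ] AlgebraicClosure ℚ)

variable {M q : ℕ} [NeZero M] [hq : Fact q.Prime]
variable {B : ValuationSubring Kb} {hB : B.LiesOverPrime q} {hqM : ¬ q ∣ M}
variable [IsAlgClosed (ResidueField B)]

/-- the node inputs at the modular tower, `(Ω, j) := (OmegaB, ι)` -/
def nodeInputMod (Dt : ModularData M q B hB hqM) (Sl : Finset Kb) (n : ℕ) (hn : n ≠ 0)
    (ζ₀ : ↥(WS B q Sl)) (hζ₀ : IsPrimitiveRoot ζ₀ n)
    (e : Crossing (chartDataModular B hB hqM)) :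
    NodeInput Dt (compDt Dt Sl) ↥(WS B q Sl) (GlueNode.cODt Dt Sl) n e :=
  GlueNode.nodeInputDt (AbsB.datumKb B hB).ι (fun _ => (AbsB.datumKb B hB).norm_ι_le_one_iff)
    Dt Sl n hn ζ₀ hζ₀ e

/-- the node actions at the modular tower -/
def nodeActionMod (Dt : ModularData M q B hB hqM) (Sl : Finset Kb) (n : ℕ) (hn : n ≠ 0)
    (ζ₀ : ↥(WS B q Sl)) (hζ₀ : IsPrimitiveRoot ζ₀ n) (hS : GalStable Sl) (s : GQ)
    (hs : s ∈ B.inertiaSubgroupIn ℚ) (e : Crossing (chartDataModular B hB hqM)) :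
    NodeAction (nodeInputMod Dt Sl n hn ζ₀ hζ₀ e) (sigmaWS hS hs) (sigmaDt Dt Sl hS hs) :=
  GlueNode.nodeActionDt (AbsB.datumKb B hB).ι (fun _ => (AbsB.datumKb B hB).norm_ι_le_one_iff)
    Dt Sl n hn ζ₀ hζ₀ e (sigmaWS hS hs) (sigmaDt Dt Sl hS hs)
    (InertiaLevels.modSigmaR B hB hqM (nonempty_crossing Dt) e (AbsB.datumKb B hB).ι
      (fun _ => (AbsB.datumKb B hB).norm_ι_le_one_iff) (AbsB.sigmaOmegaI (hB := hB) s hs)
      (AbsB.norm_sigmaOmegaI hs) (AbsB.sigmaOmegaI_ι hs) hs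
      (ExpPackComp.galStable_of_levelDesc hS q s))
    (InertiaLevels.modSigmaB1 B hB hqM (nonempty_crossing Dt) e (AbsB.datumKb B hB).ι
      (fun _ => (AbsB.datumKb B hB).norm_ι_le_one_iff) (AbsB.sigmaOmegaI (hB := hB) s hs)
      (AbsB.norm_sigmaOmegaI hs) (AbsB.sigmaOmegaI_ι hs) hs
      (ExpPackComp.galStable_of_levelDesc hS q s))
    (InertiaLevels.modSigmaB2 B hB hqM (nonempty_crossing Dt) e (AbsB.datumKb B hB).ι
      (fun _ => (AbsB.datumKb B hB).norm_ι_le_one_iff) (AbsB.sigmaOmegaI (hB := hB) s hs)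
      (AbsB.norm_sigmaOmegaI hs) (AbsB.sigmaOmegaI_ι hs) hs
      (ExpPackComp.galStable_of_levelDesc hS q s))
    (fun c => NodeBdry.modSigmaR_iotaWS B hB hqM (nonempty_crossing Dt) e (AbsB.datumKb B hB).ι
      (fun _ => (AbsB.datumKb B hB).norm_ι_le_one_iff) (AbsB.sigmaOmegaI (hB := hB) s hs)
      (AbsB.norm_sigmaOmegaI hs) (AbsB.sigmaOmegaI_ι hs) hs
      (ExpPackComp.galStable_of_levelDesc hS q s) (sigmaWS hS hs) (fun _ => rfl) c)
    (fun r => InertiaLevels.modSigmaB1_toX B hB hqM (nonempty_crossing Dt) e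
      (AbsB.datumKb B hB).ι (fun _ => (AbsB.datumKb B hB).norm_ι_le_one_iff)
      (AbsB.sigmaOmegaI (hB := hB) s hs) (AbsB.norm_sigmaOmegaI hs) (AbsB.sigmaOmegaI_ι hs) hs
      (ExpPackComp.galStable_of_levelDesc hS q s) r)
    (fun r => InertiaLevels.modSigmaB2_toY B hB hqM (nonempty_crossing Dt) e
      (AbsB.datumKb B hB).ι (fun _ => (AbsB.datumKb B hB).norm_ι_le_one_iff)
      (AbsB.sigmaOmegaI (hB := hB) s hs) (AbsB.norm_sigmaOmegaI hs) (AbsB.sigmaOmegaI_ι hs) hs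
      (ExpPackComp.galStable_of_levelDesc hS q s) r)
    (fun y => NodeBdry.modSigmaB1_b1 B hB hqM (nonempty_crossing Dt) e (AbsB.datumKb B hB).ι
      (fun _ => (AbsB.datumKb B hB).norm_ι_le_one_iff) (AbsB.sigmaOmegaI (hB := hB) s hs)
      (AbsB.norm_sigmaOmegaI hs) (AbsB.sigmaOmegaI_ι hs) hs
      (ExpPackComp.galStable_of_levelDesc hS q s)
      (fun v => DiscInst.compDatum B hB hqM v Sl) (fun _ _ => Iff.rfl) (fun _ => rfl) y)
    (fun y => NodeBdry.modSigmaB2_b2 B hB hqM (nonempty_crossing Dt) e (AbsB.datumKb B hB).ι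
      (fun _ => (AbsB.datumKb B hB).norm_ι_le_one_iff) (AbsB.sigmaOmegaI (hB := hB) s hs)
      (AbsB.norm_sigmaOmegaI hs) (AbsB.sigmaOmegaI_ι hs) hs
      (ExpPackComp.galStable_of_levelDesc hS q s)
      (fun v => DiscInst.compDatum B hB hqM v Sl) (fun _ _ => Iff.rfl) (fun _ => rfl) y)

/-- **(T3 + T4) THE PACKAGES OF THE LEVELS OF THE MODULAR TOWER.** -/
theorem levelPacks (Dt : ModularData M q B hB hqM) (Rt : RatNotion Dt)
    (hRt : ∀ Sl P, Rt.Rat Sl P → RatPlace M q (KS q Sl) P) : LevelPacks Dt Rt :=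
  levelPacks_of Dt Rt hRt (fun Sl v => GlueNode.cODt Dt Sl v) (nodeInputMod Dt)
    (nodeActionMod Dt)

end Fermat.Agent.FF3.StepB
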